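/-
P10 / G7 WP-D (helper8): step (S1) of the ordinary case: **a line with a scalar-stable model which
is not étale carries the cyclotomic character on inertia.**

Let `k` be a finite field of characteristic `p`, let the inertia group act on `X = k` through a
character `χ` which is invariant under conjugation by a Frobenius element, and let `M` be a model
on `k` which is stable under the scalars `kˣ`.  If some non-zero point has positive order then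
`χ = ω` on the inertia group (`tk_char_eq_omega`).  (Raynaud's classification of `k`-vector space
schemes of rank one, in the special case of a Frobenius-stable character and `e = 1`.)
-/
import Fermat.Agent.Lib.TW.Kum.Generator
import Fermat.Agent.Lib.TW.Flat.Char

set_option autoImplicit false
set_option linter.style.haveILetI false

namespace Fermat.Agent.TW

open Fermat.Agent.S05Lib

local notation "Qb" => AlgebraicClosure ℚ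
local notation "GQ" => (AlgebraicClosure ℚ ≃ₐ[ℚ] AlgebraicClosure ℚ)

namespace FFPlace

noncomputable section

variable (𝔓 : FFPlace)

/-! ### The tame character `σ ↦ σ ϖ / ϖ` -/

lemma tk_is_apply_div {σ : GQ} (hσ : σ ∈ 𝔓.D) {ϖ : Qb} {s : ℚ} (hϖ : 𝔓.v.Is ϖ s) :
    𝔓.v.Is (σ ϖ / ϖ) 0 := by
  have := (𝔓.is_D hσ hϖ).div hϖ
  rwa [sub_self] at this

/-- the tame character is multiplicative modulo the maximal ideal -/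
lemma tk_gt_tame_mul {σ τ : GQ} (hσ : σ ∈ 𝔓.I) (hτ : τ ∈ 𝔓.I) {ϖ : Qb} {s : ℚ}
    (hϖ : 𝔓.v.Is ϖ s) : 𝔓.v.Gt ((σ * τ) ϖ / ϖ - (σ ϖ / ϖ) * (τ ϖ / ϖ)) 0 := by
  have hτϖ : 𝔓.v.Is (τ ϖ) s := 𝔓.is_D (𝔓.I_le_D hτ) hϖ
  have h1 := 𝔓.gt_I_sub_mul hσ hϖ hτϖ.ge
  have h2 := h1.div_is hϖ
  rw [sub_self] at h2
  have h3 : (σ * τ) ϖ / ϖ - (σ ϖ / ϖ) * (τ ϖ / ϖ) = (σ (τ ϖ) - σ ϖ / ϖ * τ ϖ) / ϖ := by
    rw [AlgEquiv.mul_apply]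
    field_simp [hϖ.1]
  rw [h3]
  exact h2

/-- the tame character of a power -/
lemma tk_gt_tame_pow {τ : GQ} (hτ : τ ∈ 𝔓.I) {ϖ : Qb} {s : ℚ} (hϖ : 𝔓.v.Is ϖ s) (n : ℕ) :
    𝔓.v.Gt ((τ ^ n) ϖ / ϖ - (τ ϖ / ϖ) ^ n) 0 := by
  induction n with
  | zero =>
    rw [pow_zero, pow_zero, AlgEquiv.one_apply, div_self hϖ.1, sub_self]
    exact QVal.gt_zero'
  | succ n ih =>
    have h1 := 𝔓.tk_gt_tame_mul (pow_mem hτ n) hτ hϖ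
    have hu : 𝔓.v.Ge (τ ϖ / ϖ) 0 := (𝔓.tk_is_apply_div (𝔓.I_le_D hτ) hϖ).ge
    have h2 := ih.mul_ge hu
    rw [zero_add] at h2
    have h3 : (τ ^ (n + 1)) ϖ / ϖ - (τ ϖ / ϖ) ^ (n + 1) =
        ((τ ^ n * τ) ϖ / ϖ - (τ ^ n) ϖ / ϖ * (τ ϖ / ϖ)) +
          ((τ ^ n) ϖ / ϖ - (τ ϖ / ϖ) ^ n) * (τ ϖ / ϖ) := by
      rw [pow_succ, pow_succ]; ring
    rw [h3]
    exact h1.add h2

/-- the tame character does not depend on the choice of `ϖ` -/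
lemma tk_gt_tame_congr {τ : GQ} (hτ : τ ∈ 𝔓.I) {ϖ ϖ' : Qb} {s : ℚ} (hϖ : 𝔓.v.Is ϖ s)
    (hϖ' : 𝔓.v.Is ϖ' s) : 𝔓.v.Gt (τ ϖ' / ϖ' - τ ϖ / ϖ) 0 := by
  have h1 := 𝔓.gt_I_sub_mul hτ hϖ hϖ'.ge
  have h2 := h1.div_is hϖ'
  rw [sub_self] at h2
  have h3 : τ ϖ' / ϖ' - τ ϖ / ϖ = (τ ϖ' - τ ϖ / ϖ * ϖ') / ϖ' := by
    field_simp [hϖ.1, hϖ'.1]
  rw [h3]
  exact h2

/-- Frobenius conjugation raises the tame character to the `p`-th power -/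
lemma tk_gt_tame_frob {τ φ : GQ} (hτ : τ ∈ 𝔓.I) (hφD : φ ∈ 𝔓.D)
    (hφ : ∀ x : Qb, 𝔓.v.Ge x 0 → 𝔓.v.Gt (φ x - x ^ 𝔓.p) 0) {ϖ : Qb} {s : ℚ}
    (hϖ : 𝔓.v.Is ϖ s) : 𝔓.v.Gt ((φ * τ * φ⁻¹) ϖ / ϖ - (τ ϖ / ϖ) ^ 𝔓.p) 0 := by
  set ϖ' := φ⁻¹ ϖ with hϖ'def
  have hϖ' : 𝔓.v.Is ϖ' s := 𝔓.is_D (inv_mem hφD) hϖ
  have hφϖ' : φ ϖ' = ϖ := by
    rw [hϖ'def, ← AlgEquiv.mul_apply, mul_inv_cancel, AlgEquiv.one_apply]
  have h1 : (φ * τ * φ⁻¹) ϖ / ϖ = φ (τ ϖ' / ϖ') := by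
    rw [map_div₀, hφϖ', AlgEquiv.mul_apply, AlgEquiv.mul_apply]
  set u' := τ ϖ' / ϖ' with hu'
  have hu'0 : 𝔓.v.Is u' 0 := 𝔓.tk_is_apply_div (𝔓.I_le_D hτ) hϖ'
  have h2 := hφ u' hu'0.ge
  have h3 := 𝔓.tk_gt_tame_congr hτ hϖ hϖ'
  rw [← hu'] at h3
  -- `u' ^ p ≡ (τ ϖ / ϖ) ^ p`
  set u := τ ϖ / ϖ with hu
  have hu0 : 𝔓.v.Is u 0 := 𝔓.tk_is_apply_div (𝔓.I_le_D hτ) hϖ
  have h4 : 𝔓.v.Gt (u' ^ 𝔓.p - u ^ 𝔓.p) 0 := by
    have hfac : u' ^ 𝔓.p - u ^ 𝔓.p =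
        (u' - u) * ∑ i ∈ Finset.range 𝔓.p, u' ^ i * u ^ (𝔓.p - 1 - i) :=
      (Commute.all u' u).mul_geom_sum₂ 𝔓.p |>.symm
    rw [hfac]
    have hsum : 𝔓.v.Ge (∑ i ∈ Finset.range 𝔓.p, u' ^ i * u ^ (𝔓.p - 1 - i)) 0 := by
      refine 𝔓.ge_zero_sum _ _ fun i _ => ?_
      have := (𝔓.ge_zero_pow hu'0.ge i).mul (𝔓.ge_zero_pow hu0.ge (𝔓.p - 1 - i))
      rwa [add_zero] at this
    have := h3.mul_ge hsum
    rwa [add_zero] at this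
  rw [h1]
  have h5 : φ u' - u ^ 𝔓.p = (φ u' - u' ^ 𝔓.p) + (u' ^ 𝔓.p - u ^ 𝔓.p) := by ring
  rw [h5]
  exact h2.add h4


/-! ### The character of a line -/

/-- **(S1)**: a scalar-stable model on a line, with a Frobenius-invariant inertia character `χ`,
which is not étale, has `χ = ω` on the inertia group. -/
theorem tk_char_eq_omega {k : Type} [Field k] [Finite k] [Algebra (ZMod 𝔓.p) k]
    {act : GQ → k →+ k} (M : FFModel 𝔓 k act) (χ : GQ → k)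
    (hact : ∀ σ ∈ 𝔓.I, ∀ a : k, act σ a = χ σ * a)
    (hscal : ∀ u : k, u ≠ 0 → ∀ f ∈ M.carrier, (fun x => f (u * x)) ∈ M.carrier)
    (hχ1 : χ 1 = 1) (hχmul : ∀ σ ∈ 𝔓.I, ∀ τ ∈ 𝔓.I, χ (σ * τ) = χ σ * χ τ)
    {φ : GQ} (hφD : φ ∈ 𝔓.D) (hφ : ∀ x : Qb, 𝔓.v.Ge x 0 → 𝔓.v.Gt (φ x - x ^ 𝔓.p) 0)
    (hχφ : ∀ τ ∈ 𝔓.I, χ (φ * τ * φ⁻¹) = χ τ)
    {ζ : Qb} (hζ : IsPrimitiveRoot ζ 𝔓.p) (ω : GQ → ZMod 𝔓.p)
    (hω : ∀ σ ∈ 𝔓.I, σ ζ = lfZPow ζ (ω σ))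
    {y₀ : k} (hy₀ : y₀ ≠ 0) (hgt : M.OrdGT y₀ 0) :
    ∀ σ ∈ 𝔓.I, χ σ = algebraMap (ZMod 𝔓.p) k (ω σ) := by
  classical
  have hU := 𝔓.lf_unr
  have hp := 𝔓.hp
  haveI : CharP k 𝔓.p :=
    charP_of_injective_algebraMap (algebraMap (ZMod 𝔓.p) k).injective 𝔓.p
  have hp1 : (1 : ℚ) < 𝔓.p := by exact_mod_cast hp.one_lt
  -- `χ` is non-zero on inertia
  have hχ0 : ∀ σ ∈ 𝔓.I, χ σ ≠ 0 := by
    intro σ hσ h0
    have := hχmul σ hσ σ⁻¹ (inv_mem hσ)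
    rw [mul_inv_cancel, hχ1, h0, zero_mul] at this
    exact one_ne_zero this
  -- uniform order
  let Φ : Set (k →+ k) := {ψ | ∃ u : k, u ≠ 0 ∧ ψ = AddMonoidHom.mulLeft u}
  have hΦ : ∀ ψ ∈ Φ, ∀ f ∈ M.carrier, (fun x => f (ψ x)) ∈ M.carrier := by
    rintro ψ ⟨u, hu, rfl⟩ f hf
    exact hscal u hu f hf
  have hsimple : ∀ A : AddSubgroup k, (∀ σ ∈ 𝔓.I, ∀ x ∈ A, act σ x ∈ A) →
      (∀ ψ ∈ Φ, ∀ x ∈ A, ψ x ∈ A) → A = ⊥ ∨ A = ⊤ := by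
    intro A _ hA
    by_cases hbot : A = ⊥
    · exact Or.inl hbot
    · right
      obtain ⟨a, haA, ha0⟩ : ∃ a ∈ A, a ≠ 0 := by
        by_contra hno
        push Not at hno
        exact hbot ((AddSubgroup.eq_bot_iff_forall A).2 hno)
      rw [eq_top_iff]
      intro b _
      by_cases hb : b = 0
      · rw [hb]; exact A.zero_mem
      · have := hA (AddMonoidHom.mulLeft (b * a⁻¹)) ⟨b * a⁻¹, mul_ne_zero hb (inv_ne_zero ha0), rfl⟩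
          a haA
        rwa [AddMonoidHom.coe_mulLeft, inv_mul_cancel_right₀ ha0] at this
  obtain ⟨s, hs, hunif⟩ := FFModel.exists_uniformOrd (M := M) Φ hΦ hsimple hy₀ hgt
  obtain ⟨hge₀, f₀, hf₀, hf₀y⟩ := hunif y₀ hy₀
  -- the dictionary between relations
  have hdict : ∀ (σ₁ σ₂ : GQ), σ₁ ∈ 𝔓.I → σ₂ ∈ 𝔓.I → ∀ (n₂ : ℤ) {ϖ : Qb}, 𝔓.v.Is ϖ s →
      𝔓.v.Gt (σ₁ ϖ / ϖ - (n₂ : Qb) * (σ₂ ϖ / ϖ)) 0 → χ σ₁ = (n₂ : k) * χ σ₂ := by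
    intro σ₁ σ₂ h₁ h₂ n₂ ϖ hϖ hrel
    have h3 := hunif.sum_act_eq_zero hs hϖ (Finset.univ : Finset (Fin 2)) ![σ₁, σ₂]
      (fun i _ => by fin_cases i <;> simp [h₁, h₂]) ![1, -n₂]
      (by
        rw [Fin.sum_univ_two]
        simp only [Matrix.cons_val_zero, Matrix.cons_val_one, Int.cast_one, one_mul,
          Int.cast_neg, neg_mul]
        rw [← sub_eq_add_neg]
        exact hrel) y₀
    rw [Fin.sum_univ_two] at h3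
    simp only [Matrix.cons_val_zero, Matrix.cons_val_one, one_smul, neg_smul] at h3
    rw [hact σ₁ h₁, hact σ₂ h₂, ← sub_eq_add_neg, sub_eq_zero, zsmul_eq_mul] at h3
    have h4 : χ σ₁ * y₀ = ((n₂ : k) * χ σ₂) * y₀ := by rw [h3]; ring
    exact mul_right_cancel₀ hy₀ h4
  -- `χ τ ^ p = χ τ`
  have hχpow : ∀ (τ : GQ), τ ∈ 𝔓.I → ∀ n : ℕ, χ (τ ^ n) = χ τ ^ n := by
    intro τ hτ n
    induction n with
    | zero => rw [pow_zero, pow_zero, hχ1]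
    | succ n ih => rw [pow_succ, hχmul _ (pow_mem hτ n) _ hτ, ih, pow_succ]
  have hfrobχ : ∀ τ ∈ 𝔓.I, χ τ ^ 𝔓.p = χ τ := by
    intro τ hτ
    have h1 := 𝔓.tk_gt_tame_frob hτ hφD hφ hf₀y
    have h2 := 𝔓.tk_gt_tame_pow hτ hf₀y 𝔓.p
    have h3 : 𝔓.v.Gt ((φ * τ * φ⁻¹) (f₀ y₀) / f₀ y₀ - ((1 : ℤ) : Qb) * ((τ ^ 𝔓.p) (f₀ y₀) / f₀ y₀))
        0 := by
      rw [Int.cast_one, one_mul]
      have := h1.sub h2
      rwa [sub_sub_sub_cancel_right] at this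
    have h4 := hdict _ _ (𝔓.conj_mem_I hφD hτ) (pow_mem hτ _) 1 hf₀y h3
    rw [Int.cast_one, one_mul, hχφ τ hτ, hχpow τ hτ] at h4
    exact h4.symm
  have hχroot : ∀ τ ∈ 𝔓.I, χ τ ^ (𝔓.p - 1) = 1 := by
    intro τ hτ
    have h1 := hfrobχ τ hτ
    have h2 : χ τ ^ (𝔓.p - 1) * χ τ = 1 * χ τ := by
      rw [← pow_succ, Nat.sub_add_cancel hp.one_lt.le, h1, one_mul]
    exact mul_right_cancel₀ (hχ0 τ hτ) h2
  -- the character as a homomorphism, its kernel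
  let χI : 𝔓.I →* kˣ :=
    { toFun := fun σ => Units.mk0 (χ σ) (hχ0 σ σ.2)
      map_one' := Units.ext hχ1
      map_mul' := fun σ τ => Units.ext (hχmul σ σ.2 τ τ.2) }
  let H : Subgroup 𝔓.I := χI.ker
  haveI : Finite kˣ := inferInstance
  haveI : H.FiniteIndex := Subgroup.finiteIndex_ker χI
  have hH : ∀ σ ∈ H, ∀ x : k, act (σ : GQ) x = x := by
    intro σ hσ x
    have h1 : χI σ = 1 := hσ
    have h2 : χ (σ : GQ) = 1 := congrArg Units.val h1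
    rw [hact _ σ.2, h2, one_mul]
  have hindex : H.index ≤ 𝔓.p - 1 := by
    rw [Subgroup.index_ker]
    -- the range consists of `(p-1)`-th roots of unity
    have hsub : (χI.range : Set kˣ) ⊆ (rootsOfUnity (𝔓.p - 1) k : Set kˣ) := by
      rintro _ ⟨σ, rfl⟩
      rw [SetLike.mem_coe, mem_rootsOfUnity]
      exact Units.ext (by rw [Units.val_pow_eq_pow_val]; exact hχroot σ σ.2)
    haveI : NeZero (𝔓.p - 1) := ⟨by have := hp.two_le; omega⟩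
    calc Nat.card χI.range ≤ Nat.card (rootsOfUnity (𝔓.p - 1) k) :=
          Nat.card_mono (Set.toFinite _) hsub
      _ ≤ 𝔓.p - 1 := card_rootsOfUnity k (𝔓.p - 1)
  have hpy : 𝔓.p • y₀ = 0 := by
    rw [nsmul_eq_mul, CharP.cast_eq_zero, zero_mul]
  obtain ⟨m, hm0, hsm, -, hmle⟩ := FFModel.char_arith hU H hH hpy hs hge₀ hf₀ hf₀y
  -- `m = 1`, `index = p - 1`, `s = 1/(p-1)`
  have hidx : (H.index : ℤ) ≤ (𝔓.p : ℤ) - 1 := by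
    have : ((H.index : ℕ) : ℤ) ≤ ((𝔓.p - 1 : ℕ) : ℤ) := by exact_mod_cast hindex
    rwa [Nat.cast_sub hp.one_lt.le, Nat.cast_one] at this
  have hp1Z : (0 : ℤ) < (𝔓.p : ℤ) - 1 := by
    have : (2 : ℤ) ≤ 𝔓.p := by exact_mod_cast hp.two_le
    omega
  have hm1 : m = 1 := by
    by_contra hne
    have h2 : 2 ≤ m := by omega
    have : 2 * ((𝔓.p : ℤ) - 1) ≤ m * ((𝔓.p : ℤ) - 1) := mul_le_mul_of_nonneg_right h2 hp1Z.le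
    omega
  have hidx' : (H.index : ℤ) = (𝔓.p : ℤ) - 1 := by
    rw [hm1, one_mul] at hmle
    omega
  have hs' : s = 1 / ((𝔓.p : ℚ) - 1) := by
    have h1 : (H.index : ℚ) = (𝔓.p : ℚ) - 1 := by
      have : ((H.index : ℤ) : ℚ) = (((𝔓.p : ℤ) - 1 : ℤ) : ℚ) := by rw [hidx']
      push_cast at this
      exact this
    rw [hm1, h1] at hsm
    have h2 : (𝔓.p : ℚ) - 1 ≠ 0 := by linarith
    rw [eq_div_iff h2]
    exact_mod_cast hsm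
  -- conclusion, with `ϖ = ζ - 1`
  have hϖ : 𝔓.v.Is (ζ - 1) s := by rw [hs']; exact 𝔓.lf_is_zeta_sub_one hζ
  intro σ hσ
  have h1 := 𝔓.lf_gt_apply_zeta_sub_one hζ (σ := σ) (a := (ω σ).val) (hω σ hσ)
  have h2 : 𝔓.v.Gt (σ (ζ - 1) / (ζ - 1) -
      (((ω σ).val : ℤ) : Qb) * ((1 : GQ) (ζ - 1) / (ζ - 1))) 0 := by
    rw [AlgEquiv.one_apply, div_self hϖ.1, mul_one]
    exact_mod_cast h1
  have h3 := hdict σ 1 hσ (one_mem _) ((ω σ).val : ℤ) hϖ h2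
  rw [hχ1, mul_one] at h3
  rw [h3]
  push_cast
  rw [← map_natCast (algebraMap (ZMod 𝔓.p) k), ZMod.natCast_zmod_val]

end

end FFPlace

end Fermat.Agent.TW
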