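/-
P10 / G7 WP-D (helper8): the structure of a two-dimensional residual representation with a
function model (= "finite flat") and a stable line at `p`.

Let `A : G_ℚ → M₂(k)` be multiplicative, `N` a model on `k²` (action through `A`) which is stable
under the decomposition group and under the scalars `kˣ`.  If `det A = ω` on the inertia group
(`ω ≠ 1` there) and there is a `D`-stable line, then the connected part `{u | ord u > 0}` is a
line `k v₀`, it is `D`-stable, and the inertia group acts trivially on `k² / k v₀`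
(`tk_flat_line`).  The line is unique (`tk_line_unique`).
-/
import Fermat.Agent.Lib.TW.Ord.CharLine
import Fermat.Agent.Lib.TW.Local.OrdCondition

set_option autoImplicit false
set_option linter.style.haveILetI false

namespace Fermat.Agent.TW

open Fermat.Agent.S05Lib Matrix

local notation "Qb" => AlgebraicClosure ℚ
local notation "GQ" => (AlgebraicClosure ℚ ≃ₐ[ℚ] AlgebraicClosure ℚ)

noncomputable section

variable {k : Type} [Field k]

/-! ### Linear algebra in dimension two -/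

theorem tk_exists_dual {v : Fin 2 → k} (hv : v ≠ 0) : ∃ w : Fin 2 → k, twPerp v ⬝ᵥ w = 1 := by
  by_cases h0 : v 0 = 0
  · have h1 : v 1 ≠ 0 := by
      intro h1
      apply hv
      ext i
      fin_cases i
      · exact h0
      · exact h1
    refine ⟨![-(v 1)⁻¹, 0], ?_⟩
    simp [twPerp, dotProduct, Fin.sum_univ_two, h1]
  · refine ⟨![0, (v 0)⁻¹], ?_⟩
    simp [twPerp, dotProduct, Fin.sum_univ_two, h0]

theorem tk_decomp_of_dual {v w : Fin 2 → k} (hw : twPerp v ⬝ᵥ w = 1) (u : Fin 2 → k) :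
    u = (-(twPerp w ⬝ᵥ u)) • v + (twPerp v ⬝ᵥ u) • w := by
  simp only [twPerp, dotProduct, Fin.sum_univ_two, Matrix.cons_val_zero, Matrix.cons_val_one] at hw ⊢
  ext i
  fin_cases i
  · simp only [Fin.zero_eta, Fin.isValue, Pi.add_apply, Pi.smul_apply, smul_eq_mul]
    linear_combination (-(u 0)) * hw
  · simp only [Fin.mk_one, Fin.isValue, Pi.add_apply, Pi.smul_apply, smul_eq_mul]
    linear_combination (-(u 1)) * hw

theorem tk_perp_dual_dot {v w : Fin 2 → k} (hw : twPerp v ⬝ᵥ w = 1) : twPerp w ⬝ᵥ v = -1 := by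
  simp only [twPerp, dotProduct, Fin.sum_univ_two, Matrix.cons_val_zero, Matrix.cons_val_one] at hw ⊢
  linear_combination (-1 : k) * hw

/-- a row vector killing `v ≠ 0` is a multiple of `twPerp v` -/
theorem tk_eq_smul_perp_of_dot_eq_zero {v a : Fin 2 → k} (hv : v ≠ 0) (h : a ⬝ᵥ v = 0) :
    ∃ z : k, a = z • twPerp v := by
  have h1 : twPerp (twPerp v) ⬝ᵥ a = 0 := by
    simp only [twPerp, dotProduct, Fin.sum_univ_two, Matrix.cons_val_zero,
      Matrix.cons_val_one] at h ⊢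
    linear_combination (-1 : k) * h
  exact tw_eq_smul_of_perp (twPerp_ne_zero hv) h1

/-- the determinant of a matrix which is triangular with respect to the line `k v` -/
theorem tk_det_of_eigen {v : Fin 2 → k} (hv : v ≠ 0) {A : Matrix (Fin 2) (Fin 2) k} {x z : k}
    (hx : A *ᵥ v = x • v) (hz : twPerp v ᵥ* A = z • twPerp v) : A.det = x * z := by
  have hx0 := congrFun hx 0
  have hx1 := congrFun hx 1
  have hz0 := congrFun hz 0
  have hz1 := congrFun hz 1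
  simp only [Matrix.mulVec, Matrix.vecMul, twPerp, dotProduct, Fin.sum_univ_two, Pi.smul_apply,
    smul_eq_mul, Matrix.cons_val_zero, Matrix.cons_val_one] at hx0 hx1 hz0 hz1
  rw [Matrix.det_fin_two]
  by_cases h0 : v 0 = 0
  · have h1 : v 1 ≠ 0 := by
      intro h1
      apply hv
      ext i
      fin_cases i
      · exact h0
      · exact h1
    apply mul_right_cancel₀ h1
    linear_combination (A 0 0) * hx1 - (A 1 0) * hx0 - x * hz0
  · apply mul_right_cancel₀ h0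
    linear_combination (A 1 1) * hx0 - (A 0 1) * hx1 + x * hz1

/-- independent vectors span the plane -/
theorem tk_exists_comb {v u : Fin 2 → k} (h : twPerp v ⬝ᵥ u ≠ 0) (y : Fin 2 → k) :
    ∃ a c : k, y = a • v + c • u := by
  have hv : v ≠ 0 := by
    rintro rfl
    apply h
    simp [twPerp, dotProduct]
  set c : k := (twPerp v ⬝ᵥ y) / (twPerp v ⬝ᵥ u) with hc
  have h1 : twPerp v ⬝ᵥ (y - c • u) = 0 := by
    rw [dotProduct_sub, dotProduct_smul, smul_eq_mul, hc, div_mul_cancel₀ _ h, sub_self]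
  obtain ⟨a, ha⟩ := tw_eq_smul_of_perp hv h1
  exact ⟨a, c, by rw [← ha]; abel⟩

/-! ### The matrix action -/

/-- the action of `G_ℚ` on `k²` through a family of matrices -/
def tkMatAct (A : GQ → Matrix (Fin 2) (Fin 2) k) (σ : GQ) : (Fin 2 → k) →+ (Fin 2 → k) :=
  (Matrix.mulVecLin (A σ)).toAddMonoidHom

@[simp] lemma tkMatAct_apply (A : GQ → Matrix (Fin 2) (Fin 2) k) (σ : GQ) (u : Fin 2 → k) :
    tkMatAct A σ u = A σ *ᵥ u := rfl

/-- the line `k v₀` is stable under `D` and the inertia group acts trivially on the quotient -/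
structure TkLine (𝔓 : FFPlace) (A : GQ → Matrix (Fin 2) (Fin 2) k) (v₀ : Fin 2 → k) : Prop where
  ne_zero : v₀ ≠ 0
  decomp : ∀ σ ∈ 𝔓.D, ∃ x : k, A σ *ᵥ v₀ = x • v₀
  inertia : ∀ σ ∈ 𝔓.I, twPerp v₀ ᵥ* A σ = twPerp v₀

/-- uniqueness of the line -/
theorem tk_line_unique {𝔓 : FFPlace} {A : GQ → Matrix (Fin 2) (Fin 2) k}
    (hdet : ∃ σ ∈ 𝔓.I, (A σ).det ≠ 1) {v₀ v₀' : Fin 2 → k} (hv : TkLine 𝔓 A v₀)
    (hv' : TkLine 𝔓 A v₀') : ∃ c : k, c ≠ 0 ∧ v₀' = c • v₀ := by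
  obtain ⟨σ, hσ, hdet⟩ := hdet
  have hperp : twPerp v₀ ⬝ᵥ v₀' = 0 := by
    by_contra hne
    apply hdet
    have h1 : A σ = 1 := by
      refine tw_eq_one_of_vecMul_eq (lam := twPerp v₀) (lam' := twPerp v₀') ?_
        (hv.inertia σ hσ) (hv'.inertia σ hσ)
      intro h0
      apply hne
      simp [twPerp, dotProduct, Fin.sum_univ_two] at h0 ⊢
      linear_combination h0
    rw [h1, Matrix.det_one]
  obtain ⟨c, hc⟩ := tw_eq_smul_of_perp hv.ne_zero hperp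
  refine ⟨c, ?_, hc⟩
  rintro rfl
  rw [zero_smul] at hc
  exact hv'.ne_zero hc

/-- the eigenvalue on the line and on the quotient -/
theorem TkLine.exists_eigen {𝔓 : FFPlace} {A : GQ → Matrix (Fin 2) (Fin 2) k} {v₀ : Fin 2 → k}
    (hv : TkLine 𝔓 A v₀) {σ : GQ} (hσ : σ ∈ 𝔓.D) :
    ∃ x z : k, A σ *ᵥ v₀ = x • v₀ ∧ twPerp v₀ ᵥ* A σ = z • twPerp v₀ ∧ (A σ).det = x * z := by
  obtain ⟨x, hx⟩ := hv.decomp σ hσ
  have h1 : (twPerp v₀ ᵥ* A σ) ⬝ᵥ v₀ = 0 := by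
    rw [← Matrix.dotProduct_mulVec, hx, dotProduct_smul, twPerp_dot_self, smul_zero]
  obtain ⟨z, hz⟩ := tk_eq_smul_perp_of_dot_eq_zero hv.ne_zero h1
  exact ⟨x, z, hx, hz, tk_det_of_eigen hv.ne_zero hx hz⟩

/-! ### Lemma A: the connected part is a line -/

/-- **the structure of a flat reducible residual representation**: for a model on `k²` which is
stable under `D` and under the scalars, if there is a `D`-stable line and `det = ω ≠ 1` on the
inertia group, then the connected part is a line `k v₀` with `TkLine`. -/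
theorem tk_flat_line {𝔓 : FFPlace} [Finite k] [Algebra (ZMod 𝔓.p) k]
    {A : GQ → Matrix (Fin 2) (Fin 2) k} (hA1 : A 1 = 1) (hAmul : ∀ σ τ, A (σ * τ) = A σ * A τ)
    (N : FFModel 𝔓 (Fin 2 → k) (tkMatAct A)) (hN : N.DStable)
    (hscal : ∀ u : k, u ≠ 0 → ∀ f ∈ N.carrier, (fun x => f (u • x)) ∈ N.carrier)
    (hred : ∃ v₁ : Fin 2 → k, v₁ ≠ 0 ∧ ∀ σ ∈ 𝔓.D, ∃ x : k, A σ *ᵥ v₁ = x • v₁)
    {ζ : Qb} (hζ : IsPrimitiveRoot ζ 𝔓.p) (ω : GQ → ZMod 𝔓.p)
    (hω : ∀ σ ∈ 𝔓.I, σ ζ = lfZPow ζ (ω σ))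
    (hdet : ∀ σ ∈ 𝔓.I, (A σ).det = algebraMap (ZMod 𝔓.p) k (ω σ))
    {φ : GQ} (hφD : φ ∈ 𝔓.D) (hφ : ∀ x : Qb, 𝔓.v.Ge x 0 → 𝔓.v.Gt (φ x - x ^ 𝔓.p) 0)
    {ι₀ : GQ} (hι₀ : ι₀ ∈ 𝔓.I) (hι₀ω : ω ι₀ ≠ 1) :
    ∃ v₀ : Fin 2 → k, TkLine 𝔓 A v₀ ∧ ∀ u, N.OrdGT u 0 ↔ ∃ c : k, u = c • v₀ := by
  classical
  have hU := 𝔓.lf_unr
  have hp := 𝔓.hp
  -- scalar stability of the order
  have hsc : ∀ (u : k) (x : Fin 2 → k), N.OrdGT x 0 → N.OrdGT (u • x) 0 := by
    intro u x hx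
    by_cases hu : u = 0
    · rw [hu, zero_smul]; exact N.ordGT_zero 0
    · intro f hf hf0
      exact hx _ (hscal u hu f hf) (by simp only [smul_zero]; exact hf0)
  have hDst : ∀ σ ∈ 𝔓.D, ∀ x, N.OrdGT x 0 → N.OrdGT (A σ *ᵥ x) 0 :=
    fun σ hσ x hx => hN.ordGT hσ hx
  have hItriv : ∀ τ ∈ 𝔓.I, ∀ u, N.OrdGT (A τ *ᵥ u - u) 0 := fun τ hτ u => N.ordGT_act_sub u hτ
  have hdetι : (A ι₀).det ≠ 1 := by
    rw [hdet ι₀ hι₀]
    intro h
    apply hι₀ω
    exact (algebraMap (ZMod 𝔓.p) k).injective (by rw [h, map_one])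
  -- case: no non-zero connected point
  by_cases hbot : ∀ u, N.OrdGT u 0 → u = 0
  · exfalso
    apply hdetι
    have h1 : A ι₀ = 1 := by
      rw [Matrix.ext_iff_mulVec]
      intro u
      rw [Matrix.one_mulVec]
      exact sub_eq_zero.1 (hbot _ (hItriv ι₀ hι₀ u))
    rw [h1, Matrix.det_one]
  push Not at hbot
  obtain ⟨v₀, hv₀gt, hv₀⟩ := hbot
  by_cases hline : ∀ u, N.OrdGT u 0 → ∃ c : k, u = c • v₀
  · -- the line case
    refine ⟨v₀, ⟨hv₀, ?_, ?_⟩, fun u => ⟨hline u, ?_⟩⟩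
    · intro σ hσ
      exact hline _ (hDst σ hσ v₀ hv₀gt)
    · intro σ hσ
      apply tw_vec_ext_of_dot
      intro u
      obtain ⟨c, hc⟩ := hline _ (hItriv σ hσ u)
      rw [← Matrix.dotProduct_mulVec]
      have h1 : A σ *ᵥ u = u + c • v₀ := by rw [← hc]; abel
      rw [h1, dotProduct_add, dotProduct_smul, twPerp_dot_self, smul_zero, add_zero]
    · rintro ⟨c, rfl⟩
      exact hsc c v₀ hv₀gt
  · -- the connected case: contradiction
    exfalso
    push Not at hline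
    obtain ⟨u₁, hu₁gt, hu₁⟩ := hline
    have hperp : twPerp v₀ ⬝ᵥ u₁ ≠ 0 := by
      intro h0
      obtain ⟨c, hc⟩ := tw_eq_smul_of_perp hv₀ h0
      exact hu₁ c hc
    have hall : ∀ y, N.OrdGT y 0 := by
      intro y
      obtain ⟨a, c, rfl⟩ := tk_exists_comb hperp y
      exact (hsc a v₀ hv₀gt).add (hsc c u₁ hu₁gt)
    obtain ⟨v₁, hv₁, hv₁D⟩ := hred
    have hp₁ : twPerp v₁ ≠ 0 := twPerp_ne_zero hv₁
    have hzD : ∀ σ ∈ 𝔓.D, ∃ z : k, twPerp v₁ ᵥ* A σ = z • twPerp v₁ := by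
      intro σ hσ
      obtain ⟨x, hx⟩ := hv₁D σ hσ
      have h1 : (twPerp v₁ ᵥ* A σ) ⬝ᵥ v₁ = 0 := by
        rw [← Matrix.dotProduct_mulVec, hx, dotProduct_smul, twPerp_dot_self, smul_zero]
      exact tk_eq_smul_perp_of_dot_eq_zero hv₁ h1
    choose! x₁ hx₁ using hv₁D
    choose! z₁ hz₁ using hzD
    have hinj₁ : Function.Injective (fun a : k => a • v₁) := smul_left_injective k hv₁
    have hinj₂ : Function.Injective (fun a : k => a • twPerp v₁) := smul_left_injective k hp₁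
    have hx₁one : x₁ 1 = 1 := by
      apply hinj₁
      show x₁ 1 • v₁ = (1 : k) • v₁
      rw [← hx₁ 1 (one_mem _), hA1, Matrix.one_mulVec, one_smul]
    have hz₁one : z₁ 1 = 1 := by
      apply hinj₂
      show z₁ 1 • twPerp v₁ = (1 : k) • twPerp v₁
      rw [← hz₁ 1 (one_mem _), hA1, Matrix.vecMul_one, one_smul]
    have hx₁mul : ∀ σ ∈ 𝔓.D, ∀ τ ∈ 𝔓.D, x₁ (σ * τ) = x₁ σ * x₁ τ := by
      intro σ hσ τ hτ
      apply hinj₁
      show x₁ (σ * τ) • v₁ = (x₁ σ * x₁ τ) • v₁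
      rw [← hx₁ _ (mul_mem hσ hτ), hAmul, ← Matrix.mulVec_mulVec, hx₁ τ hτ, Matrix.mulVec_smul,
        hx₁ σ hσ, smul_smul, mul_comm]
    have hz₁mul : ∀ σ ∈ 𝔓.D, ∀ τ ∈ 𝔓.D, z₁ (σ * τ) = z₁ σ * z₁ τ := by
      intro σ hσ τ hτ
      apply hinj₂
      show z₁ (σ * τ) • twPerp v₁ = (z₁ σ * z₁ τ) • twPerp v₁
      rw [← hz₁ _ (mul_mem hσ hτ), hAmul, ← Matrix.vecMul_vecMul, hz₁ σ hσ, Matrix.smul_vecMul,
        hz₁ τ hτ, smul_smul]
    have hconj : ∀ (χ : GQ → k), χ 1 = 1 →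
        (∀ σ ∈ 𝔓.D, ∀ τ ∈ 𝔓.D, χ (σ * τ) = χ σ * χ τ) →
        ∀ τ ∈ 𝔓.I, χ (φ * τ * φ⁻¹) = χ τ := by
      intro χ h1 hmul τ hτ
      have hτD := 𝔓.I_le_D hτ
      rw [hmul _ (mul_mem hφD hτD) _ (inv_mem hφD), hmul _ hφD _ hτD]
      have h2 : χ φ * χ φ⁻¹ = 1 := by rw [← hmul _ hφD _ (inv_mem hφD), mul_inv_cancel, h1]
      calc χ φ * χ τ * χ φ⁻¹ = χ τ * (χ φ * χ φ⁻¹) := by ring
        _ = χ τ := by rw [h2, mul_one]
    -- the sub-line
    let ι₁ : k →+ (Fin 2 → k) :=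
      { toFun := fun a => a • v₁
        map_zero' := zero_smul _ _
        map_add' := fun a b => add_smul a b v₁ }
    have hι₁ : Function.Injective ι₁ := hinj₁
    let act₁ : GQ → k →+ k := fun σ => AddMonoidHom.mulLeft (x₁ σ)
    have hact₁ : ∀ σ ∈ 𝔓.D, ∀ y, ι₁ (act₁ σ y) = tkMatAct A σ (ι₁ y) := by
      intro σ hσ y
      show (x₁ σ * y) • v₁ = A σ *ᵥ (y • v₁)
      rw [Matrix.mulVec_smul, hx₁ σ hσ, smul_smul, mul_comm]
    let N₁ : FFModel 𝔓 k act₁ := N.comap ι₁ hι₁ (fun σ hσ y => hact₁ σ (𝔓.I_le_D hσ) y)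
    have hχ₁ := 𝔓.tk_char_eq_omega N₁ x₁ (fun _ _ _ => rfl)
      (by
        rintro u hu _ ⟨g, hg, rfl⟩
        refine ⟨_, hscal u hu g hg, ?_⟩
        funext a
        show g (u • (a • v₁)) = g ((u * a) • v₁)
        rw [smul_smul])
      hx₁one (fun σ hσ τ hτ => hx₁mul σ (𝔓.I_le_D hσ) τ (𝔓.I_le_D hτ)) hφD hφ
      (hconj x₁ hx₁one hx₁mul) hζ ω hω (y₀ := 1) one_ne_zero
      ((FFModel.ordGT_comap_iff ι₁ hι₁ _ 1 0).2 (hall _))
    -- the quotient line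
    let π : (Fin 2 → k) →+ k :=
      { toFun := fun u => twPerp v₁ ⬝ᵥ u
        map_zero' := dotProduct_zero _
        map_add' := fun a b => dotProduct_add _ a b }
    obtain ⟨w, hw⟩ := tk_exists_dual hv₁
    have hπ : Function.Surjective π := by
      intro a
      refine ⟨a • w, ?_⟩
      show twPerp v₁ ⬝ᵥ (a • w) = a
      rw [dotProduct_smul, hw, smul_eq_mul, mul_one]
    let act₂ : GQ → k →+ k := fun σ => AddMonoidHom.mulLeft (z₁ σ)
    have hact₂ : ∀ σ ∈ 𝔓.D, ∀ x, π (tkMatAct A σ x) = act₂ σ (π x) := by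
      intro σ hσ x
      show twPerp v₁ ⬝ᵥ (A σ *ᵥ x) = z₁ σ * (twPerp v₁ ⬝ᵥ x)
      rw [Matrix.dotProduct_mulVec, hz₁ σ hσ, smul_dotProduct, smul_eq_mul]
    let N₂ : FFModel 𝔓 k act₂ := N.quot hU π hπ (fun σ hσ x => hact₂ σ (𝔓.I_le_D hσ) x)
    have hgt₂ : N₂.OrdGT 1 0 := by
      have h1 := FFModel.OrdGT.quot N hU π hπ (fun σ hσ x => hact₂ σ (𝔓.I_le_D hσ) x) (hall w)
      have h2 : π w = 1 := hw
      rwa [h2] at h1
    have hχ₂ := 𝔓.tk_char_eq_omega N₂ z₁ (fun _ _ _ => rfl)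
      (by
        intro u hu f hf
        rw [FFModel.mem_quot_carrier] at hf ⊢
        have h1 := hscal u hu _ hf
        have h2 : (fun x => f (π (u • x))) = fun x => f (u * π x) := by
          funext x
          show f (twPerp v₁ ⬝ᵥ (u • x)) = f (u * (twPerp v₁ ⬝ᵥ x))
          rw [dotProduct_smul, smul_eq_mul]
        rw [← h2]
        exact h1)
      hz₁one (fun σ hσ τ hτ => hz₁mul σ (𝔓.I_le_D hσ) τ (𝔓.I_le_D hτ)) hφD hφ
      (hconj z₁ hz₁one hz₁mul) hζ ω hω (y₀ := 1) one_ne_zero hgt₂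
    -- the determinant
    have h3 := tk_det_of_eigen hv₁ (hx₁ ι₀ (𝔓.I_le_D hι₀)) (hz₁ ι₀ (𝔓.I_le_D hι₀))
    rw [hdet ι₀ hι₀, hχ₁ ι₀ hι₀, hχ₂ ι₀ hι₀, ← map_mul] at h3
    have h4 : ω ι₀ = ω ι₀ * ω ι₀ := (algebraMap (ZMod 𝔓.p) k).injective h3
    have h5 : ω ι₀ ≠ 0 := by
      intro h0
      have h6 := hω ι₀ hι₀
      rw [h0, lfZPow_zero] at h6
      have h7 : ζ = 1 := by
        have := congrArg ι₀.symm h6
        rwa [AlgEquiv.symm_apply_apply, map_one] at this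
      exact hζ.ne_one hp.one_lt h7
    apply hι₀ω
    have h8 : ω ι₀ * 1 = ω ι₀ * ω ι₀ := by rw [mul_one]; exact h4
    exact (mul_left_cancel₀ h5 h8).symm

end

end Fermat.Agent.TW
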