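/-
P10 / G7 WP-D (helper8): the structure of a flat lift to the dual numbers of a reducible residual
representation.

Let `r : G_ℚ → GL₂(k[ε])` lift `A : G_ℚ → GL₂(k)`, and let `M` be a model on `k[ε]²` which is stable
under `D` and under the scalars `k[ε]ˣ`.  If `k v₀` is the line of `A` (`TkLine`), `w` a vector
with `det [v₀ | w] = 1`, then the connected part of `M` is the free `k[ε]`-module spanned by
`ṽ = v₀ + ε b₁ w` for some `b₁ : k` (`tk_flat_dual_line`).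
-/
import Fermat.Agent.Lib.TW.Ord.LineStructure
import Fermat.Agent.Lib.TW.Flat.Dictionary

set_option autoImplicit false
set_option linter.style.haveILetI false
set_option linter.unusedSectionVars false

namespace Fermat.Agent.TW

open Fermat.Agent.S05Lib Matrix

local notation "Qb" => AlgebraicClosure ℚ
local notation "GQ" => (AlgebraicClosure ℚ ≃ₐ[ℚ] AlgebraicClosure ℚ)

noncomputable section

variable {k : Type} [Field k]

/-! ### Vectors over the dual numbers -/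

/-- the vector `ε v` -/
def tkVEps (v : Fin 2 → k) : Fin 2 → DualNumber k := fun i => TrivSqZeroExt.inr (v i)

@[simp] theorem tkVFst_eps (v : Fin 2 → k) : twVFst (tkVEps v) = 0 := by
  ext i; simp [twVFst, tkVEps]

@[simp] theorem tkVSnd_eps (v : Fin 2 → k) : twVSnd (tkVEps v) = v := by
  ext i; simp [twVSnd, tkVEps]

@[simp] theorem tkVSnd_const (v : Fin 2 → k) : twVSnd (twVConst v) = 0 := by
  ext i; simp [twVSnd, twVConst]

theorem tkVFst_add (u v : Fin 2 → DualNumber k) : twVFst (u + v) = twVFst u + twVFst v := by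
  ext i; simp [twVFst]

theorem tkVSnd_add (u v : Fin 2 → DualNumber k) : twVSnd (u + v) = twVSnd u + twVSnd v := by
  ext i; simp [twVSnd]

theorem tkVSnd_sub (u v : Fin 2 → DualNumber k) : twVSnd (u - v) = twVSnd u - twVSnd v := by
  ext i; simp [twVSnd]

@[simp] theorem tkVFst_zero : twVFst (0 : Fin 2 → DualNumber k) = 0 := by
  ext i; simp [twVFst]

@[simp] theorem tkVSnd_zero : twVSnd (0 : Fin 2 → DualNumber k) = 0 := by
  ext i; simp [twVSnd]

theorem tk_dualVec_ext {x y : Fin 2 → DualNumber k} (h1 : twVFst x = twVFst y)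
    (h2 : twVSnd x = twVSnd y) : x = y := by
  ext i
  · exact congrFun h1 i
  · exact congrFun h2 i

/-- the vector `v₀ + ε v₁` -/
def tkVMk (v₀ v₁ : Fin 2 → k) : Fin 2 → DualNumber k := twVConst v₀ + tkVEps v₁

@[simp] theorem tkVFst_mk (v₀ v₁ : Fin 2 → k) : twVFst (tkVMk v₀ v₁) = v₀ := by
  rw [tkVMk, tkVFst_add, twVFst_const, tkVFst_eps, add_zero]

@[simp] theorem tkVSnd_mk (v₀ v₁ : Fin 2 → k) : twVSnd (tkVMk v₀ v₁) = v₁ := by
  rw [tkVMk, tkVSnd_add, tkVSnd_const, tkVSnd_eps, zero_add]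

theorem tkVMk_fst_snd (x : Fin 2 → DualNumber k) : tkVMk (twVFst x) (twVSnd x) = x :=
  tk_dualVec_ext (tkVFst_mk _ _) (tkVSnd_mk _ _)

/-- `ε` times a vector -/
theorem tk_inr_smul (c : k) (x : Fin 2 → DualNumber k) :
    (TrivSqZeroExt.inr c : DualNumber k) • x = tkVEps (c • twVFst x) := by
  apply tk_dualVec_ext
  · rw [twVFst_smul, tkVFst_eps, TrivSqZeroExt.fst_inr, zero_smul]
  · rw [twVSnd_smul, tkVSnd_eps, TrivSqZeroExt.fst_inr, TrivSqZeroExt.snd_inr, zero_smul, zero_add]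

/-- `mulVec` of `ε v` -/
theorem tk_mulVec_eps (B : Matrix (Fin 2) (Fin 2) (DualNumber k)) (v : Fin 2 → k) :
    B *ᵥ tkVEps v = tkVEps (mFst B *ᵥ v) := by
  apply tk_dualVec_ext
  · rw [twVFst_mulVec, tkVFst_eps, tkVFst_eps, Matrix.mulVec_zero]
  · rw [twVSnd_mulVec, tkVFst_eps, tkVSnd_eps, tkVSnd_eps, Matrix.mulVec_zero, add_zero]

/-! ### Lemma B -/

/-- **the structure of a flat lift**: the connected part of a `D`-stable, scalar-stable model of a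
lift `r` of `A` to the dual numbers is `k[ε] (v₀ + ε b₁ w)`. -/
theorem tk_flat_dual_line {𝔓 : FFPlace} [Finite k] [Algebra (ZMod 𝔓.p) k]
    {A : GQ → Matrix (Fin 2) (Fin 2) k} (hA1 : A 1 = 1) (hAmul : ∀ σ τ, A (σ * τ) = A σ * A τ)
    (r : GQ →* Matrix (Fin 2) (Fin 2) (DualNumber k)) (hr : ∀ σ, mFst (r σ) = A σ)
    (M : FFModel 𝔓 (DualPts k) (dualAct r)) (hM : M.DStable)
    (hscal : ∀ u : (DualNumber k)ˣ, ∀ f ∈ M.carrier, (fun x => f (u • x)) ∈ M.carrier)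
    (hred : ∃ v₁ : Fin 2 → k, v₁ ≠ 0 ∧ ∀ σ ∈ 𝔓.D, ∃ x : k, A σ *ᵥ v₁ = x • v₁)
    {ζ : Qb} (hζ : IsPrimitiveRoot ζ 𝔓.p) (ω : GQ → ZMod 𝔓.p)
    (hω : ∀ σ ∈ 𝔓.I, σ ζ = lfZPow ζ (ω σ))
    (hdet : ∀ σ ∈ 𝔓.I, (A σ).det = algebraMap (ZMod 𝔓.p) k (ω σ))
    {φ : GQ} (hφD : φ ∈ 𝔓.D) (hφ : ∀ x : Qb, 𝔓.v.Ge x 0 → 𝔓.v.Gt (φ x - x ^ 𝔓.p) 0)
    {ι₀ : GQ} (hι₀ : ι₀ ∈ 𝔓.I) (hι₀ω : ω ι₀ ≠ 1)
    {v₀ w : Fin 2 → k} (hv : TkLine 𝔓 A v₀) (hw : twPerp v₀ ⬝ᵥ w = 1) :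
    ∃ b₁ : k, (∀ x : DualPts k, M.OrdGT x 0 ↔ ∃ c : DualNumber k, x = c • tkVMk v₀ (b₁ • w)) ∧
      (∀ σ ∈ 𝔓.D, ∃ x : DualNumber k, r σ *ᵥ tkVMk v₀ (b₁ • w) = x • tkVMk v₀ (b₁ • w)) ∧
      ∀ τ ∈ 𝔓.I, ∀ u : DualPts k, ∃ c : DualNumber k, r τ *ᵥ u - u = c • tkVMk v₀ (b₁ • w) := by
  classical
  have hU := 𝔓.lf_unr
  haveI : Finite (DualPts k) := inferInstance
  have hdetι : (A ι₀).det ≠ 1 := by
    rw [hdet ι₀ hι₀]
    intro h
    apply hι₀ω
    exact (algebraMap (ZMod 𝔓.p) k).injective (by rw [h, map_one])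
  have hdetex : ∃ σ ∈ 𝔓.I, (A σ).det ≠ 1 := ⟨ι₀, hι₀, hdetι⟩
  -- units
  have hunit : ∀ c : DualNumber k, c.fst ≠ 0 → IsUnit c := fun c hc =>
    TrivSqZeroExt.isUnit_iff_isUnit_fst.2 (isUnit_iff_ne_zero.2 hc)
  have hUst : ∀ c : DualNumber k, IsUnit c → ∀ x, M.OrdGT x 0 → M.OrdGT (c • x) 0 := by
    rintro _ ⟨u, rfl⟩ x hx f hf hf0
    have h1 := hx _ (hscal u f hf) (by
      show f (u • (0 : DualPts k)) = 0
      rw [smul_zero]; exact hf0)
    exact h1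
  have hRst : ∀ (c : DualNumber k) (x : DualPts k), M.OrdGT x 0 → M.OrdGT (c • x) 0 := by
    intro c x hx
    by_cases hc : c.fst = 0
    · have h1 : c • x = (1 + c) • x - x := by rw [add_smul, one_smul]; abel
      rw [h1]
      refine FFModel.OrdGT.sub (hUst _ (hunit _ ?_) x hx) hx
      rw [TrivSqZeroExt.fst_add, TrivSqZeroExt.fst_one, hc, add_zero]
      exact one_ne_zero
    · exact hUst c (hunit c hc) x hx
  -- the quotient model
  let π : DualPts k →+ (Fin 2 → k) :=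
    { toFun := twVFst
      map_zero' := tkVFst_zero
      map_add' := tkVFst_add }
  have hπ : Function.Surjective π := fun u => ⟨twVConst u, twVFst_const u⟩
  have hactπ : ∀ (σ : GQ) (x : DualPts k), π (dualAct r σ x) = tkMatAct A σ (π x) := by
    intro σ x
    show twVFst (r σ *ᵥ x) = A σ *ᵥ twVFst x
    rw [twVFst_mulVec, hr]
  let Mq : FFModel 𝔓 (Fin 2 → k) (tkMatAct A) := M.quot hU π hπ (fun σ _ x => hactπ σ x)
  have hMq : Mq.DStable := hM.quot hU π hπ (fun σ _ x => hactπ σ x) (fun σ _ x => hactπ σ x)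
  have hscalq : ∀ u : k, u ≠ 0 → ∀ f ∈ Mq.carrier, (fun x => f (u • x)) ∈ Mq.carrier := by
    intro u hu f hf
    rw [FFModel.mem_quot_carrier] at hf ⊢
    obtain ⟨U, hUu⟩ := hunit (TrivSqZeroExt.inl u) (by rw [TrivSqZeroExt.fst_inl]; exact hu)
    have h1 := hscal U _ hf
    have h2 : (fun x : DualPts k => f (π (U • x))) = fun x => f (u • π x) := by
      funext x
      show f (twVFst (U • x)) = f (u • twVFst x)
      rw [Units.smul_def, hUu, twVFst_smul, TrivSqZeroExt.fst_inl]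
    rw [← h2]
    exact h1
  -- the sub-model
  let ι : (Fin 2 → k) →+ DualPts k :=
    { toFun := tkVEps
      map_zero' := by ext i <;> simp [tkVEps]
      map_add' := fun a b => by ext i <;> simp [tkVEps] }
  have hι : Function.Injective ι := by
    intro a b hab
    have := congrArg twVSnd hab
    simpa [ι] using this
  have hactι : ∀ (σ : GQ) (y : Fin 2 → k), ι (tkMatAct A σ y) = dualAct r σ (ι y) := by
    intro σ y
    show tkVEps (A σ *ᵥ y) = r σ *ᵥ tkVEps y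
    rw [tk_mulVec_eps, hr]
  let Ms : FFModel 𝔓 (Fin 2 → k) (tkMatAct A) := M.comap ι hι (fun σ _ y => hactι σ y)
  have hMs : Ms.DStable := hM.comap ι hι (fun σ _ y => hactι σ y) (fun σ _ y => hactι σ y)
  have hscals : ∀ u : k, u ≠ 0 → ∀ f ∈ Ms.carrier, (fun x => f (u • x)) ∈ Ms.carrier := by
    rintro u hu _ ⟨g, hg, rfl⟩
    obtain ⟨U, hUu⟩ := hunit (TrivSqZeroExt.inl u) (by rw [TrivSqZeroExt.fst_inl]; exact hu)
    refine ⟨_, hscal U g hg, ?_⟩
    funext y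
    show g (U • tkVEps y) = g (tkVEps (u • y))
    congr 1
    rw [Units.smul_def, hUu]
    apply tk_dualVec_ext
    · rw [twVFst_smul, tkVFst_eps, tkVFst_eps, smul_zero]
    · rw [twVSnd_smul, tkVFst_eps, tkVSnd_eps, tkVSnd_eps, TrivSqZeroExt.fst_inl, smul_zero,
        add_zero]
  -- Lemma A twice
  obtain ⟨vq, hvq, hgtq⟩ := tk_flat_line hA1 hAmul Mq hMq hscalq hred hζ ω hω hdet hφD hφ hι₀ hι₀ω
  obtain ⟨vs, hvs, hgts⟩ := tk_flat_line hA1 hAmul Ms hMs hscals hred hζ ω hω hdet hφD hφ hι₀ hι₀ω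
  obtain ⟨cq, hcq0, rfl⟩ := tk_line_unique hdetex hv hvq
  obtain ⟨cs, hcs0, rfl⟩ := tk_line_unique hdetex hv hvs
  have hgtq' : ∀ u, Mq.OrdGT u 0 ↔ ∃ c : k, u = c • v₀ := by
    intro u
    rw [hgtq]
    constructor
    · rintro ⟨c, rfl⟩; exact ⟨c * cq, by rw [smul_smul]⟩
    · rintro ⟨c, rfl⟩; exact ⟨c * cq⁻¹, by rw [smul_smul, inv_mul_cancel_right₀ hcq0]⟩
  have hgts' : ∀ u, Ms.OrdGT u 0 ↔ ∃ c : k, u = c • v₀ := by
    intro u
    rw [hgts]
    constructor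
    · rintro ⟨c, rfl⟩; exact ⟨c * cs, by rw [smul_smul]⟩
    · rintro ⟨c, rfl⟩; exact ⟨c * cs⁻¹, by rw [smul_smul, inv_mul_cancel_right₀ hcs0]⟩
  -- the three facts about the connected part
  have hεX0 : ∀ y : Fin 2 → k, M.OrdGT (tkVEps y) 0 ↔ ∃ c : k, y = c • v₀ := by
    intro y
    rw [← hgts']
    exact (FFModel.ordGT_comap_iff ι hι (fun σ _ y => hactι σ y) y 0).symm
  have hπX0 : ∀ x : DualPts k, M.OrdGT x 0 → ∃ c : k, twVFst x = c • v₀ := by
    intro x hx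
    rw [← hgtq']
    exact FFModel.OrdGT.quot M hU π hπ (fun σ _ x => hactπ σ x) hx
  have hItriv : ∀ τ ∈ 𝔓.I, ∀ u : DualPts k, M.OrdGT (r τ *ᵥ u - u) 0 :=
    fun τ hτ u => M.ordGT_act_sub u hτ
  -- a connected point with non-zero reduction
  have hex : ∃ x₁ : DualPts k, M.OrdGT x₁ 0 ∧ twVFst x₁ ≠ 0 := by
    by_contra hno
    push Not at hno
    apply hdetι
    have h1 : A ι₀ = 1 := by
      rw [Matrix.ext_iff_mulVec]
      intro u
      rw [Matrix.one_mulVec]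
      have h2 := hno _ (hItriv ι₀ hι₀ (twVConst u))
      rw [twVFst_sub, twVFst_mulVec, twVFst_const, hr] at h2
      exact sub_eq_zero.1 h2
    rw [h1, Matrix.det_one]
  obtain ⟨x₁, hx₁gt, hx₁⟩ := hex
  obtain ⟨c₁, hc₁⟩ := hπX0 x₁ hx₁gt
  have hc₁0 : c₁ ≠ 0 := by
    rintro rfl
    rw [zero_smul] at hc₁
    exact hx₁ hc₁
  -- normalisation
  set x₂ : DualPts k := (TrivSqZeroExt.inl c₁⁻¹ : DualNumber k) • x₁ with hx₂
  have hx₂gt : M.OrdGT x₂ 0 := hRst _ _ hx₁gt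
  have hx₂f : twVFst x₂ = v₀ := by
    rw [hx₂, twVFst_smul, TrivSqZeroExt.fst_inl, hc₁, smul_smul, inv_mul_cancel₀ hc₁0, one_smul]
  set v₁ : Fin 2 → k := twVSnd x₂ with hv₁
  obtain ⟨α, β, hv₁dec⟩ : ∃ α β : k, v₁ = α • v₀ + β • w := ⟨_, _, tk_decomp_of_dual hw v₁⟩
  set x₃ : DualPts k := (1 + TrivSqZeroExt.inr (-α) : DualNumber k) • x₂ with hx₃
  have hx₃gt : M.OrdGT x₃ 0 := hRst _ _ hx₂gt
  have hx₃eq : x₃ = tkVMk v₀ (β • w) := by
    apply tk_dualVec_ext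
    · rw [hx₃, twVFst_smul, hx₂f, tkVFst_mk, TrivSqZeroExt.fst_add, TrivSqZeroExt.fst_one,
        TrivSqZeroExt.fst_inr, add_zero, one_smul]
    · rw [hx₃, twVSnd_smul, hx₂f, tkVSnd_mk, TrivSqZeroExt.fst_add, TrivSqZeroExt.fst_one,
        TrivSqZeroExt.fst_inr, add_zero, one_smul, TrivSqZeroExt.snd_add, TrivSqZeroExt.snd_one,
        TrivSqZeroExt.snd_inr, zero_add, ← hv₁, hv₁dec]
      rw [neg_smul]
      abel
  rw [hx₃eq] at hx₃gt
  have hX0 : ∀ x : DualPts k, M.OrdGT x 0 ↔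
      ∃ c : DualNumber k, x = c • tkVMk v₀ (β • w) := by
    intro x
    constructor
    · intro hx
      obtain ⟨c₀, hc₀⟩ := hπX0 x hx
      set y : DualPts k := x - (TrivSqZeroExt.inl c₀ : DualNumber k) • tkVMk v₀ (β • w) with hy
      have hygt : M.OrdGT y 0 := FFModel.OrdGT.sub hx (hRst _ _ hx₃gt)
      have hyf : twVFst y = 0 := by
        rw [hy, twVFst_sub, twVFst_smul, tkVFst_mk, TrivSqZeroExt.fst_inl, hc₀, sub_self]
      have hyeq : y = tkVEps (twVSnd y) := by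
        apply tk_dualVec_ext
        · rw [hyf, tkVFst_eps]
        · rw [tkVSnd_eps]
      rw [hyeq] at hygt
      obtain ⟨c', hc'⟩ := (hεX0 _).1 hygt
      refine ⟨TrivSqZeroExt.inl c₀ + TrivSqZeroExt.inr c', ?_⟩
      have h1 : x = (TrivSqZeroExt.inl c₀ : DualNumber k) • tkVMk v₀ (β • w) + y := by
        rw [hy]; abel
      rw [h1, add_smul, tk_inr_smul, tkVFst_mk, ← hc', ← hyeq]
    · rintro ⟨c, rfl⟩
      exact hRst _ _ hx₃gt
  refine ⟨β, hX0, fun σ hσ => ?_, fun τ hτ u => ?_⟩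
  · exact (hX0 _).1 (hM.ordGT hσ hx₃gt)
  · exact (hX0 _).1 (hItriv τ hτ u)

/-- the reduction of a model of a lift is a model of the residual representation -/
theorem tk_exists_model_bar {𝔓 : FFPlace} [Finite k] {A : GQ → Matrix (Fin 2) (Fin 2) k}
    (r : GQ →* Matrix (Fin 2) (Fin 2) (DualNumber k)) (hr : ∀ σ, mFst (r σ) = A σ)
    (M : FFModel 𝔓 (DualPts k) (dualAct r)) (hM : M.DStable)
    (hscal : ∀ u : (DualNumber k)ˣ, ∀ f ∈ M.carrier, (fun x => f (u • x)) ∈ M.carrier) :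
    ∃ N : FFModel 𝔓 (Fin 2 → k) (tkMatAct A), N.DStable ∧
      ∀ u : k, u ≠ 0 → ∀ f ∈ N.carrier, (fun x => f (u • x)) ∈ N.carrier := by
  have hU := 𝔓.lf_unr
  haveI : Finite (DualPts k) := inferInstance
  have hunit : ∀ c : DualNumber k, c.fst ≠ 0 → IsUnit c := fun c hc =>
    TrivSqZeroExt.isUnit_iff_isUnit_fst.2 (isUnit_iff_ne_zero.2 hc)
  let π : DualPts k →+ (Fin 2 → k) :=
    { toFun := twVFst
      map_zero' := tkVFst_zero
      map_add' := tkVFst_add }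
  have hπ : Function.Surjective π := fun u => ⟨twVConst u, twVFst_const u⟩
  have hactπ : ∀ (σ : GQ) (x : DualPts k), π (dualAct r σ x) = tkMatAct A σ (π x) := by
    intro σ x
    show twVFst (r σ *ᵥ x) = A σ *ᵥ twVFst x
    rw [twVFst_mulVec, hr]
  refine ⟨M.quot hU π hπ (fun σ _ x => hactπ σ x),
    hM.quot hU π hπ (fun σ _ x => hactπ σ x) (fun σ _ x => hactπ σ x), ?_⟩
  intro u hu f hf
  rw [FFModel.mem_quot_carrier] at hf ⊢
  obtain ⟨U, hUu⟩ := hunit (TrivSqZeroExt.inl u) (by rw [TrivSqZeroExt.fst_inl]; exact hu)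
  have h1 := hscal U _ hf
  have h2 : (fun x : DualPts k => f (π (U • x))) = fun x => f (u • π x) := by
    funext x
    show f (twVFst (U • x)) = f (u • twVFst x)
    rw [Units.smul_def, hUu, twVFst_smul, TrivSqZeroExt.fst_inl]
  rw [← h2]
  exact h1

end

end Fermat.Agent.TW
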