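/-
P10 / G7 WP-D (helper8): **flat ⇒ peu ramifié**, quotient form.

If `M` is a model on a finite group `X`, `K ≤ X` an inertia-stable subgroup, `x ∈ X` and
`a : G_ℚ → ZMod p` a function with `a σ = 0 ↔ σ x - x ∈ K` on the inertia group (and
`p (σ x - x) ∈ K`), then every Kummer generator `y` of `a` has `v(y ^ p) ∈ p ℤ`
(`tk_peu_of_model_quot`): apply `tk_peu_of_model` to the quotient model on `X ⧸ K`.
-/
import Fermat.Agent.Lib.TW.Kum.PeuModel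
import Fermat.Agent.Lib.TW.Flat.ModelQuot

set_option autoImplicit false
set_option linter.style.haveILetI false

namespace Fermat.Agent.TW

open Fermat.Agent.S05Lib

local notation "Qb" => AlgebraicClosure ℚ
local notation "GQ" => (AlgebraicClosure ℚ ≃ₐ[ℚ] AlgebraicClosure ℚ)

namespace FFPlace

noncomputable section

variable (𝔓 : FFPlace)

/-- **flat ⇒ peu ramifié**, quotient form -/
theorem tk_peu_of_model_quot {ζ : Qb} (hζ : IsPrimitiveRoot ζ 𝔓.p) {X : Type*}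
    [AddCommGroup X] [Finite X] {act : GQ → X →+ X} (M : FFModel 𝔓 X act) (K : AddSubgroup X)
    (hK : ∀ σ ∈ 𝔓.I, ∀ x ∈ K, act σ x ∈ K) (x : X) (a : GQ → ZMod 𝔓.p)
    (ha : ∀ σ ∈ 𝔓.I, (a σ = 0 ↔ act σ x - x ∈ K))
    (hpx : ∀ σ ∈ 𝔓.I, 𝔓.p • (act σ x - x) ∈ K)
    {y : Qb} (hy : 𝔓.TkGen ζ a y) : (𝔓.tkInv (y ^ 𝔓.p)).1 = 0 := by
  classical
  have hU := 𝔓.lf_unr
  let π : X →+ X ⧸ K := QuotientAddGroup.mk' K
  have hπ : Function.Surjective π := QuotientAddGroup.mk'_surjective K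
  let actY : GQ → (X ⧸ K) →+ (X ⧸ K) := fun σ =>
    if h : σ ∈ 𝔓.I then QuotientAddGroup.map K K (act σ) (fun x hx => hK σ h x hx)
    else AddMonoidHom.id _
  have hact : ∀ σ ∈ 𝔓.I, ∀ x, π (act σ x) = actY σ (π x) := by
    intro σ hσ x
    simp only [actY, dif_pos hσ]
    rfl
  let M' : FFModel 𝔓 (X ⧸ K) actY := M.quot hU π hπ hact
  have hGE : (lfAdjoin 𝔓.K0 ζ).fixingSubgroup ≤ 𝔓.I :=
    𝔓.lf_fixingSubgroup_le (lf_le_adjoin _ _)
  have hker : ∀ z : X, π z = 0 ↔ z ∈ K := fun z => QuotientAddGroup.eq_zero_iff z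
  refine 𝔓.tk_peu_of_model hζ M' (π x) a (fun σ hσ => ?_) (fun σ hσ => ?_) hy
  · rw [ha σ (hGE hσ), ← hact σ (hGE hσ), ← sub_eq_zero, ← map_sub, hker]
  · rw [← hact σ (hGE hσ), ← map_sub, ← map_nsmul, hker]
    exact hpx σ (hGE hσ)

/-- **flat ⇒ peu ramifié**, coordinate form: the differences `σ x - x` lie in the image of an
injective homomorphism `j : T → X`, and `a = ℓ ∘ c` for the coordinates `c` of `σ x - x` and an
additive map `ℓ : T → ZMod p` whose kernel is stable under the inertia group. -/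
theorem tk_peu_of_model_coord {ζ : Qb} (hζ : IsPrimitiveRoot ζ 𝔓.p) {X : Type*}
    [AddCommGroup X] [Finite X] {act : GQ → X →+ X} (M : FFModel 𝔓 X act)
    (hpX : ∀ z : X, 𝔓.p • z = 0) {T : Type*} [AddCommGroup T] (j : T →+ X)
    (hj : Function.Injective j) (ℓ : T →+ ZMod 𝔓.p)
    (hstab : ∀ σ ∈ 𝔓.I, ∀ t : T, ℓ t = 0 → ∃ t' : T, act σ (j t) = j t' ∧ ℓ t' = 0)
    (x : X) (c : GQ → T) (hc : ∀ σ ∈ 𝔓.I, act σ x - x = j (c σ))
    {y : Qb} (hy : 𝔓.TkGen ζ (fun σ => ℓ (c σ)) y) : (𝔓.tkInv (y ^ 𝔓.p)).1 = 0 := by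
  refine 𝔓.tk_peu_of_model_quot hζ M (ℓ.ker.map j) ?_ x _ ?_ ?_ hy
  · rintro σ hσ _ ⟨t, ht, rfl⟩
    obtain ⟨t', h1, h2⟩ := hstab σ hσ t ht
    exact ⟨t', h2, h1.symm⟩
  · intro σ hσ
    rw [hc σ hσ]
    constructor
    · intro h
      exact ⟨c σ, h, rfl⟩
    · rintro ⟨t, ht, htj⟩
      rw [← hj htj]
      exact ht
  · intro σ _
    rw [hpX]
    exact zero_mem _

end

end FFPlace

end Fermat.Agent.TW
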