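/-
P10 / G7 WP-D (helper8): the tangent classes of flat lifts of a reducible residual representation
lie in the flat ordinary condition `tkBorelClasses`.

* `tk_peu_residual` : the extension class of `ρbar` itself is peu ramifié (given a model on `k²`);
* `tk_tangent_mem_flatOrd` : for a lift `r` with a model whose connected part is
  `k[ε] (v₀ + ε b₁ w)`, the restriction of the tangent class lies in `tkBorelClasses`.
-/
import Fermat.Agent.Lib.TW.Ord.FlatOrd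
import Fermat.Agent.Lib.TW.Ord.DualStructure
import Fermat.Agent.Lib.TW.Ord.PeuQuot

set_option autoImplicit false
set_option linter.style.haveILetI false
set_option linter.unusedSectionVars false

open Fermat.Agent.S53Lib groupCohomology ExtCitation Polynomial CategoryTheory IsLocalRing Matrix

namespace Fermat.Agent.TW

noncomputable section

local notation "Qb" => AlgebraicClosure ℚ

variable {k : Type} [Field k]

/-! ### Linear algebra: the adjusted tangent matrix -/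

theorem tk_tangent_mulVec_v {A Ainv B Y : Matrix (Fin 2) (Fin 2) k} {v₀ w : Fin 2 → k}
    {x₀ x₁ b₁ : k} (hx0 : x₀ ≠ 0) (hAinvv : Ainv *ᵥ v₀ = x₀⁻¹ • v₀)
    (h3 : B *ᵥ v₀ + A *ᵥ (b₁ • w) = x₀ • (b₁ • w) + x₁ • v₀) (hYv : Y *ᵥ v₀ = b₁ • w) :
    (B * Ainv + (A * Y * Ainv - Y)) *ᵥ v₀ = (x₁ * x₀⁻¹) • v₀ := by
  have hB : B *ᵥ v₀ = x₀ • (b₁ • w) + x₁ • v₀ - A *ᵥ (b₁ • w) := eq_sub_of_add_eq h3
  rw [Matrix.add_mulVec, Matrix.sub_mulVec, ← Matrix.mulVec_mulVec, ← Matrix.mulVec_mulVec,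
    ← Matrix.mulVec_mulVec, hAinvv, Matrix.mulVec_smul, Matrix.mulVec_smul, Matrix.mulVec_smul,
    hYv, hB]
  match_scalars <;> field_simp <;> ring

theorem tk_tangent_mulVec_w {A Ainv B Y : Matrix (Fin 2) (Fin 2) k} {v₀ w : Fin 2 → k}
    {x₀ x₁ b₁ c₀ c₁ : k} (hx0 : x₀ ≠ 0) (hAw : A *ᵥ w = w + c₀ • v₀)
    (hAinvw : Ainv *ᵥ w = w - (c₀ * x₀⁻¹) • v₀)
    (h3 : B *ᵥ v₀ + A *ᵥ (b₁ • w) = x₀ • (b₁ • w) + x₁ • v₀)
    (h4 : B *ᵥ w = c₀ • (b₁ • w) + c₁ • v₀) (hYv : Y *ᵥ v₀ = b₁ • w) (hYw : Y *ᵥ w = 0) :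
    (B * Ainv + (A * Y * Ainv - Y)) *ᵥ w = (c₁ - c₀ * x₁ * x₀⁻¹) • v₀ := by
  have hB : B *ᵥ v₀ = x₀ • (b₁ • w) + x₁ • v₀ - A *ᵥ (b₁ • w) := eq_sub_of_add_eq h3
  rw [Matrix.add_mulVec, Matrix.sub_mulVec, ← Matrix.mulVec_mulVec, ← Matrix.mulVec_mulVec,
    ← Matrix.mulVec_mulVec, hAinvw, Matrix.mulVec_sub, Matrix.mulVec_sub, Matrix.mulVec_smul,
    Matrix.mulVec_smul, hYw, hYv, h4, hB, Matrix.mulVec_smul, hAw, zero_sub, Matrix.mulVec_neg,
    Matrix.mulVec_smul, Matrix.mulVec_smul, hAw]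
  match_scalars <;> field_simp <;> ring

/-- the matrix `v₀ ↦ b₁ w`, `w ↦ 0` -/
def tkShiftMat (w : Fin 2 → k) (b₁ : k) : Matrix (Fin 2) (Fin 2) k :=
  b₁ • vecMulVec w (-twPerp w)

theorem tkShiftMat_mulVec_v {v₀ w : Fin 2 → k} (hw : twPerp v₀ ⬝ᵥ w = 1) (b₁ : k) :
    tkShiftMat w b₁ *ᵥ v₀ = b₁ • w := by
  unfold tkShiftMat
  rw [Matrix.smul_mulVec, vecMulVec_mulVec, neg_dotProduct, tk_perp_dual_dot hw, neg_neg]
  simp

theorem tkShiftMat_mulVec_w (w : Fin 2 → k) (b₁ : k) : tkShiftMat w b₁ *ᵥ w = 0 := by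
  unfold tkShiftMat
  rw [Matrix.smul_mulVec, vecMulVec_mulVec, neg_dotProduct, twPerp_dot_self]
  simp

theorem tkShiftMat_trace (w : Fin 2 → k) (b₁ : k) : (tkShiftMat w b₁).trace = 0 := by
  unfold tkShiftMat
  rw [Matrix.trace_smul, trace_vecMulVec, dotProduct_neg, dotProduct_comm, twPerp_dot_self]
  simp

/-! ### Generalities -/

/-- the descent of a level-constant function is constant modulo a finite level on the
decomposition group -/
theorem tkDesc_level {𝔓 : FFPlace} {q : Nat.Primes} (hq : TkOnto 𝔓 q) {X : Type*} [Zero X]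
    {g : primeLocalGaloisGroup q → X} (hg : IsLevelConstant₁ (primeLocalToGlobal q) g) :
    ∃ F : IntermediateField ℚ Qb, FiniteDimensional ℚ F ∧
      ∀ σ ∈ 𝔓.D, ∀ τ ∈ 𝔓.D, (∀ x ∈ F, σ x = τ x) → tkDesc q g σ = tkDesc q g τ := by
  obtain ⟨F, hF, hFc⟩ := hg
  refine ⟨F, hF, fun σ hσ τ hτ hx => ?_⟩
  obtain ⟨s, rfl⟩ := hq.2 σ hσ
  obtain ⟨t, rfl⟩ := hq.2 τ hτ
  rw [tkDesc_apply q ⟨F, hF, hFc⟩, tkDesc_apply q ⟨F, hF, hFc⟩]
  have h1 : t = s * (s⁻¹ * t) := by group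
  rw [h1]
  refine (hFc s _ ?_).symm
  rw [IntermediateField.mem_fixingSubgroup_iff]
  intro x hxF
  rw [map_mul, map_inv]
  show (primeLocalToGlobal q s)⁻¹ (primeLocalToGlobal q t x) = x
  rw [← hx x hxF]
  exact (primeLocalToGlobal q s).symm_apply_apply x

section Peu

variable (p : ℕ) [Fact p.Prime] [Finite k] [Algebra (ZMod p) k] {ρbar : ResidualGaloisRep k}
  {b : Module.Basis (Fin 2) k ρbar.V} {v₀ w : Fin 2 → k}

omit [Finite k] in
/-- on the inertia group `v₀` is an eigenvector with eigenvalue `χ` -/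
theorem tk_mulVec_v_inertia (S : TkSetupD (ffPlaceAt p) k) (hSχ : S.χ = tkChi ρbar b v₀ w)
    (hv : TkLine (ffPlaceAt p) (rbarMat ρbar b) v₀) (hw : twPerp v₀ ⬝ᵥ w = 1) {σ : GQ}
    (hσ : σ ∈ (ffPlaceAt p).I) :
    rbarMat ρbar b σ *ᵥ v₀ = S.χ σ • v₀ ∧
      rbarMat ρbar b σ *ᵥ w = w + (-(twPerp w ⬝ᵥ (rbarMat ρbar b σ *ᵥ w))) • v₀ := by
  obtain ⟨x, z, hx, hz, hdet⟩ := hv.exists_eigen ((ffPlaceAt p).I_le_D hσ)
  have hz1 : twPerp v₀ ᵥ* rbarMat ρbar b σ = (1 : k) • twPerp v₀ := by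
    rw [one_smul]; exact hv.inertia σ hσ
  constructor
  · rw [hSχ, tkChi_eq hw one_ne_zero hx hz1, inv_one, mul_one]
    exact hx
  · have := tk_mulVec_w (ρbar := ρbar) (b := b) hw hz1
    rwa [one_smul] at this

omit [Finite k] in
theorem tk_charP_of_algebra : CharP k p :=
  charP_of_injective_algebraMap (algebraMap (ZMod p) k).injective p

/-- **the extension class of `ρbar` is peu ramifié** if `ρbar` has a model -/
theorem tk_peu_residual (S : TkSetupD (ffPlaceAt p) k) (hSχ : S.χ = tkChi ρbar b v₀ w)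
    (hv : TkLine (ffPlaceAt p) (rbarMat ρbar b) v₀) (hw : twPerp v₀ ⬝ᵥ w = 1)
    (N : FFModel (ffPlaceAt p) (Fin 2 → k) (tkMatAct (rbarMat ρbar b))) :
    S.IsPeu (fun σ => -(twPerp w ⬝ᵥ (rbarMat ρbar b σ *ᵥ w))) := by
  haveI : CharP k p := tk_charP_of_algebra p
  set c₀ : GQ → k := fun σ => -(twPerp w ⬝ᵥ (rbarMat ρbar b σ *ᵥ w)) with hc₀
  have hAv : ∀ σ ∈ (ffPlaceAt p).I, rbarMat ρbar b σ *ᵥ v₀ = S.χ σ • v₀ :=
    fun σ hσ => (tk_mulVec_v_inertia p S hSχ hv hw hσ).1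
  have hAw : ∀ σ ∈ (ffPlaceAt p).I, rbarMat ρbar b σ *ᵥ w = w + c₀ σ • v₀ :=
    fun σ hσ => (tk_mulVec_v_inertia p S hSχ hv hw hσ).2
  have hcocI : ∀ σ ∈ (ffPlaceAt p).I, ∀ τ ∈ (ffPlaceAt p).I,
      c₀ (σ * τ) = S.χ σ * c₀ τ + c₀ σ := by
    intro σ hσ τ hτ
    have h1 : rbarMat ρbar b (σ * τ) *ᵥ w = w + (c₀ σ + c₀ τ * S.χ σ) • v₀ := by
      rw [rbarMat_mul, ← Matrix.mulVec_mulVec, hAw τ hτ, Matrix.mulVec_add, Matrix.mulVec_smul,
        hAw σ hσ, hAv σ hσ, smul_smul, add_assoc, ← add_smul]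
    show -(twPerp w ⬝ᵥ (rbarMat ρbar b (σ * τ) *ᵥ w)) = _
    rw [h1, dotProduct_add, dotProduct_smul, twPerp_dot_self, tk_perp_dual_dot hw, smul_eq_mul]
    ring
  have hlevI : ∃ F : IntermediateField ℚ Qb, FiniteDimensional ℚ F ∧
      ∀ σ ∈ (ffPlaceAt p).I, ∀ τ ∈ (ffPlaceAt p).I, (∀ x ∈ F, σ x = τ x) → c₀ σ = c₀ τ := by
    obtain ⟨L, hL, hLρ⟩ := ρbar.factorsThroughFiniteLevel
    refine ⟨L, hL, fun σ _ τ _ hx => ?_⟩
    have h1 : ρbar.ρ (σ⁻¹ * τ) = 1 := by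
      apply hLρ
      intro x hxL
      show σ⁻¹ (τ x) = x
      rw [← hx x hxL]
      exact σ.symm_apply_apply x
    have h2 : rbarMat ρbar b τ = rbarMat ρbar b σ := by
      have h3 : τ = σ * (σ⁻¹ * τ) := by group
      have h4 : rbarMat ρbar b (σ⁻¹ * τ) = 1 := by
        unfold rbarMat
        rw [h1, Module.End.one_eq_id, LinearMap.toMatrix_id]
      rw [h3, rbarMat_mul, h4, mul_one]
    show -(twPerp w ⬝ᵥ (rbarMat ρbar b σ *ᵥ w)) = -(twPerp w ⬝ᵥ (rbarMat ρbar b τ *ᵥ w))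
    rw [h2]
  intro b'
  obtain ⟨y, hy⟩ := S.exists_gen_of_inertia hcocI hlevI b'
  refine ⟨y, hy, ?_⟩
  let j : k →+ (Fin 2 → k) :=
    { toFun := fun s => s • v₀
      map_zero' := zero_smul _ _
      map_add' := fun a c => add_smul a c v₀ }
  let ℓ : k →+ ZMod (ffPlaceAt p).p :=
    { toFun := fun s => S.lam (b' * s)
      map_zero' := by rw [mul_zero, map_zero]
      map_add' := fun a c => by rw [mul_add, map_add] }
  refine (ffPlaceAt p).tk_peu_of_model_coord S.hζ N ?_ j (smul_left_injective k hv.ne_zero) ℓ ?_ w c₀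
    ?_ hy
  · intro z
    ext i
    show (p : ℕ) • z i = 0
    rw [nsmul_eq_mul, CharP.cast_eq_zero, zero_mul]
  · intro σ hσ s hs
    refine ⟨s * S.χ σ, ?_, ?_⟩
    · show rbarMat ρbar b σ *ᵥ (s • v₀) = (s * S.χ σ) • v₀
      rw [Matrix.mulVec_smul, hAv σ hσ, smul_smul]
    · show S.lam (b' * (s * S.χ σ)) = 0
      have h1 : b' * (s * S.χ σ) = algebraMap (ZMod (ffPlaceAt p).p) k (S.ω σ) * (b' * s) := by
        rw [S.hχ σ hσ]; ring
      rw [h1, S.lam_algebraMap_mul]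
      have h2 : S.lam (b' * s) = 0 := hs
      rw [h2, mul_zero]
  · intro σ hσ
    show rbarMat ρbar b σ *ᵥ w - w = c₀ σ • v₀
    rw [hAw σ hσ, add_sub_cancel_left]

/-- **the tangent classes of flat lifts lie in the flat ordinary condition** -/
theorem tk_tangent_mem_flatOrd (S : TkSetupD (ffPlaceAt p) k) (hSχ : S.χ = tkChi ρbar b v₀ w)
    (hv : TkLine (ffPlaceAt p) (rbarMat ρbar b) v₀) (hw : twPerp v₀ ⬝ᵥ w = 1)
    (r : GQ →* Matrix (Fin 2) (Fin 2) (DualNumber k)) (h : MatCts (DualNumber k) r)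
    (hr : IsDualLift ρbar b r) (hdet : HasResidualDet r)
    (M : FFModel (ffPlaceAt p) (DualPts k) (dualAct r)) (b₁ : k)
    (hD : ∀ σ ∈ (ffPlaceAt p).D, ∃ x : DualNumber k,
      r σ *ᵥ tkVMk v₀ (b₁ • w) = x • tkVMk v₀ (b₁ • w))
    (hI : ∀ τ ∈ (ffPlaceAt p).I, ∀ u : DualPts k, ∃ c : DualNumber k,
      r τ *ᵥ u - u = c • tkVMk v₀ (b₁ • w)) :
    resAt (pPrime p) (ad0Rep ρbar) (tangentClass r hr hdet) ∈
      tkBorelClasses S (pPrime p) (ad0Rep ρbar) (tkFormN ρbar b w) (tkFormH ρbar b v₀ w)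
        (tkFormB ρbar b v₀) := by
  classical
  haveI : CharP k p := tk_charP_of_algebra p
  have hq := tk_onto p
  obtain ⟨c', hlev, hval, hcls⟩ := tw_resAt_tangentClass_eq (pPrime p) r h hr hdet
    (twAdMk ρbar b (tkShiftMat w b₁) (tkShiftMat_trace w b₁))
  -- the matrix of `c' τ`
  have hC : ∀ τ, twAdMat b (c' τ) =
      mSnd (r (primeLocalToGlobal (pPrime p) τ)) * rbarMat ρbar b (primeLocalToGlobal (pPrime p) τ)⁻¹ +
        (rbarMat ρbar b (primeLocalToGlobal (pPrime p) τ) * tkShiftMat w b₁ *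
          rbarMat ρbar b (primeLocalToGlobal (pPrime p) τ)⁻¹ - tkShiftMat w b₁) := by
    intro τ
    rw [hval τ, twAdMat_add, twAdMat_sub, twAdMat_ρ, twAdMat_tangentCocycle, twAdMat_twAdMk]
    rfl
  -- the equations of the line
  have hline : ∀ (σ : GQ) (x : DualNumber k),
      r σ *ᵥ tkVMk v₀ (b₁ • w) = x • tkVMk v₀ (b₁ • w) →
      rbarMat ρbar b σ *ᵥ v₀ = x.fst • v₀ ∧
        mSnd (r σ) *ᵥ v₀ + rbarMat ρbar b σ *ᵥ (b₁ • w) = x.fst • (b₁ • w) + x.snd • v₀ := by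
    intro σ x hx
    have h1 := congrArg twVFst hx
    rw [twVFst_mulVec, twVFst_smul, tkVFst_mk, hr σ] at h1
    have h2 := congrArg twVSnd hx
    rw [twVSnd_mulVec, twVSnd_smul, tkVFst_mk, tkVSnd_mk, hr σ] at h2
    exact ⟨h1, by rw [add_comm]; exact h2⟩
  have hfst0 : ∀ (σ : GQ) (x₀ : k), rbarMat ρbar b σ *ᵥ v₀ = x₀ • v₀ → x₀ ≠ 0 := by
    rintro σ x₀ hx rfl
    apply hv.ne_zero
    have h1 : rbarMat ρbar b σ⁻¹ *ᵥ (rbarMat ρbar b σ *ᵥ v₀) = v₀ := by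
      rw [Matrix.mulVec_mulVec, rbarMat_inv_mul, Matrix.one_mulVec]
    rw [hx, zero_smul, Matrix.mulVec_zero] at h1
    exact h1.symm
  -- the Borel condition
  have hCv : ∀ (τ : primeLocalGaloisGroup (pPrime p)) (x : DualNumber k),
      r (primeLocalToGlobal (pPrime p) τ) *ᵥ tkVMk v₀ (b₁ • w) = x • tkVMk v₀ (b₁ • w) →
      twAdMat b (c' τ) *ᵥ v₀ = (x.snd * x.fst⁻¹) • v₀ := by
    intro τ x hx
    obtain ⟨h1, h3⟩ := hline _ x hx
    have hx0 := hfst0 _ _ h1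
    rw [hC τ]
    exact tk_tangent_mulVec_v hx0 (tk_inv_mulVec hx0 h1) h3 (tkShiftMat_mulVec_v hw b₁)
  have hB : ∀ τ, tkFormB ρbar b v₀ (c' τ) = 0 := by
    intro τ
    obtain ⟨x, hx⟩ := hD _ (hq.1 τ)
    rw [tkFormB_apply, hCv τ x hx, dotProduct_smul, twPerp_dot_self, smul_zero]
  -- inertia
  have hIdata : ∀ τ ∈ twLocInertia (pPrime p), ∀ x c : DualNumber k,
      r (primeLocalToGlobal (pPrime p) τ) *ᵥ tkVMk v₀ (b₁ • w) = x • tkVMk v₀ (b₁ • w) →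
      r (primeLocalToGlobal (pPrime p) τ) *ᵥ twVConst w - twVConst w = c • tkVMk v₀ (b₁ • w) →
      x.snd = 0 ∧ tkFormH ρbar b v₀ w (c' τ) = 0 ∧ tkFormN ρbar b w (c' τ) = c.snd := by
    intro τ hτ x c hx hc
    set σ := primeLocalToGlobal (pPrime p) τ with hσdef
    obtain ⟨h1, h3⟩ := hline σ x hx
    have hx0 := hfst0 _ _ h1
    have h2 := congrArg twVFst hc
    rw [twVFst_sub, twVFst_mulVec, twVFst_const, twVFst_smul, tkVFst_mk, hr σ] at h2
    have h4 := congrArg twVSnd hc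
    rw [tkVSnd_sub, twVSnd_mulVec, tkVSnd_const, twVFst_const, Matrix.mulVec_zero, zero_add,
      sub_zero, twVSnd_smul, tkVFst_mk, tkVSnd_mk] at h4
    have hAw : rbarMat ρbar b σ *ᵥ w = w + c.fst • v₀ := by
      rw [← h2]; abel
    have hAw' : rbarMat ρbar b σ *ᵥ w = (1 : k) • w + c.fst • v₀ := by rw [one_smul]; exact hAw
    have hAinvw : rbarMat ρbar b σ⁻¹ *ᵥ w = w - (c.fst * x.fst⁻¹) • v₀ := by
      have := tk_inv_mulVec_w hx0 one_ne_zero h1 hAw'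
      rwa [inv_one, one_smul, mul_one] at this
    have hCw : twAdMat b (c' τ) *ᵥ w = (c.snd - c.fst * x.snd * x.fst⁻¹) • v₀ := by
      rw [hC τ]
      exact tk_tangent_mulVec_w hx0 hAw hAinvw h3 h4 (tkShiftMat_mulVec_v hw b₁)
        (tkShiftMat_mulVec_w w b₁)
    have hCv' := hCv τ x hx
    have htr := tk_trace_eq hw (twAdMat b (c' τ))
    rw [twAdMat_trace, hCv', hCw, dotProduct_smul, dotProduct_smul, twPerp_dot_self,
      tk_perp_dual_dot hw, smul_zero, add_zero, smul_eq_mul, mul_neg, mul_one, neg_neg] at htr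
    have hx1 : x.snd = 0 := by
      rcases mul_eq_zero.1 htr.symm with h5 | h5
      · exact h5
      · exact absurd h5 (inv_ne_zero hx0)
    refine ⟨hx1, ?_, ?_⟩
    · rw [tkFormH_apply, hCv', hx1, zero_mul, zero_smul, dotProduct_zero, neg_zero]
    · rw [tkFormN_apply, hCw, hx1, mul_zero, zero_mul, sub_zero, dotProduct_smul,
        tk_perp_dual_dot hw, smul_eq_mul, mul_neg, mul_one, neg_neg]
  have hmemI : ∀ τ : primeLocalGaloisGroup (pPrime p),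
      τ ∈ twLocInertia (pPrime p) ↔ primeLocalToGlobal (pPrime p) τ ∈ (ffPlaceAt p).I := fun τ => Iff.rfl
  have hU : ∀ τ ∈ twLocInertia (pPrime p), tkFormH ρbar b v₀ w (c' τ) = 0 := by
    intro τ hτ
    obtain ⟨x, hx⟩ := hD _ (hq.1 τ)
    obtain ⟨c, hc⟩ := hI _ ((hmemI τ).1 hτ) (twVConst w)
    exact (hIdata τ hτ x c hx hc).2.1
  refine (mem_tkBorelClasses_iff _ _ _ _ _ _ _).2 ⟨c', hlev, hB, hU, ?_, hcls⟩
  -- the peu ramifié condition
  set γ : GQ → k := tkCoefN (pPrime p) (ad0Rep ρbar) (tkFormN ρbar b w) c' with hγ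
  have hγapp : ∀ τ, γ (primeLocalToGlobal (pPrime p) τ) = tkFormN ρbar b w (c' τ) :=
    fun τ => tkCoefN_apply (pPrime p) (ad0Rep ρbar) (tkFormN ρbar b w) hlev τ
  have hcocI : ∀ σ ∈ (ffPlaceAt p).I, ∀ τ ∈ (ffPlaceAt p).I,
      γ (σ * τ) = S.χ σ * γ τ + γ σ := by
    intro σ hσ τ hτ
    obtain ⟨s, rfl⟩ := hq.2 σ ((ffPlaceAt p).I_le_D hσ)
    obtain ⟨t, rfl⟩ := hq.2 τ ((ffPlaceAt p).I_le_D hτ)
    rw [← map_mul, hγapp, hγapp, hγapp, tw_coc_mul, map_add]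
    congr 1
    have h1 : c' t = tkFormN ρbar b w (c' t) • twNilEl ρbar b v₀ :=
      tk_eq_smul_nilEl hv.ne_zero hw _ (hB t) (hU t ((hmemI t).2 hτ))
    rw [h1]
    show tkFormN ρbar b w ((ad0Rep ρbar).ρ (primeLocalToGlobal (pPrime p) s)
      (tkFormN ρbar b w (c' t) • twNilEl ρbar b v₀)) = _
    rw [map_smul, map_smul, map_smul, tkFormN_nilEl hw, hSχ, smul_eq_mul, smul_eq_mul, mul_one,
      mul_comm]
    rfl
  have hlevI : ∃ F : IntermediateField ℚ Qb, FiniteDimensional ℚ F ∧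
      ∀ σ ∈ (ffPlaceAt p).I, ∀ τ ∈ (ffPlaceAt p).I, (∀ x ∈ F, σ x = τ x) → γ σ = γ τ := by
    obtain ⟨F, hF, hFc⟩ := tkDesc_level hq (hlev.comp (fun x => tkFormN ρbar b w x))
    exact ⟨F, hF, fun σ hσ τ hτ hx =>
      hFc σ ((ffPlaceAt p).I_le_D hσ) τ ((ffPlaceAt p).I_le_D hτ) hx⟩
  intro b'
  obtain ⟨y, hy⟩ := S.exists_gen_of_inertia hcocI hlevI b'
  refine ⟨y, hy, ?_⟩
  let j : DualNumber k →+ DualPts k :=
    { toFun := fun t => t • tkVMk v₀ (b₁ • w)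
      map_zero' := zero_smul _ _
      map_add' := fun a c => add_smul a c _ }
  have hj : Function.Injective j := by
    intro t t' htt
    have h1 := congrArg twVFst htt
    have h2 := congrArg twVSnd htt
    simp only [j, AddMonoidHom.coe_mk, ZeroHom.coe_mk, twVFst_smul, twVSnd_smul, tkVFst_mk,
      tkVSnd_mk] at h1 h2
    have h3 : t.fst = t'.fst := smul_left_injective k hv.ne_zero h1
    rw [h3] at h2
    have h4 : t.snd = t'.snd := smul_left_injective k hv.ne_zero (add_left_cancel h2)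
    exact TrivSqZeroExt.ext h3 h4
  let ℓ : DualNumber k →+ ZMod (ffPlaceAt p).p :=
    { toFun := fun t => S.lam (b' * t.snd)
      map_zero' := by rw [TrivSqZeroExt.snd_zero, mul_zero, map_zero]
      map_add' := fun a c => by rw [TrivSqZeroExt.snd_add, mul_add, map_add] }
  let cc : GQ → DualNumber k := fun σ =>
    if hσ : σ ∈ (ffPlaceAt p).I then (hI σ hσ (twVConst w)).choose else 0
  have hcc : ∀ σ ∈ (ffPlaceAt p).I, r σ *ᵥ twVConst w - twVConst w = cc σ • tkVMk v₀ (b₁ • w) := by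
    intro σ hσ
    simp only [cc, dif_pos hσ]
    exact (hI σ hσ (twVConst w)).choose_spec
  have hy' : (ffPlaceAt p).TkGen S.ζ (fun σ => ℓ (cc σ)) y := by
    refine hy.congr (fun ι hι => ?_)
    obtain ⟨t, rfl⟩ := hq.2 ι ((ffPlaceAt p).I_le_D hι)
    obtain ⟨x, hx⟩ := hD _ (hq.1 t)
    have h1 := (hIdata t ((hmemI t).2 hι) x _ hx (hcc _ hι)).2.2
    show S.lam (b' * γ (primeLocalToGlobal (pPrime p) t)) =
      S.lam (b' * (cc (primeLocalToGlobal (pPrime p) t)).snd)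
    rw [hγapp, h1]
  refine (ffPlaceAt p).tk_peu_of_model_coord S.hζ M ?_ j hj ℓ ?_ (twVConst w) cc ?_ hy'
  · intro z
    have h1 : ((p : ℕ) : DualNumber k) = 0 := tw_natCast_dualNumber_eq_zero p
    show (p : ℕ) • z = 0
    rw [← Nat.cast_smul_eq_nsmul (DualNumber k), h1, zero_smul]
  · intro σ hσ t ht
    obtain ⟨s, rfl⟩ := hq.2 σ ((ffPlaceAt p).I_le_D hσ)
    obtain ⟨x, hx⟩ := hD _ (hq.1 s)
    have hx1 := (hIdata s ((hmemI s).2 hσ) x _ hx (hcc _ hσ)).1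
    obtain ⟨h1, -⟩ := hline _ x hx
    have hxχ : x.fst = S.χ (primeLocalToGlobal (pPrime p) s) := by
      have h5 := (tk_mulVec_v_inertia p S hSχ hv hw hσ).1
      rw [h1] at h5
      exact smul_left_injective k hv.ne_zero h5
    refine ⟨t * x, ?_, ?_⟩
    · show r (primeLocalToGlobal (pPrime p) s) *ᵥ (t • tkVMk v₀ (b₁ • w)) =
        (t * x) • tkVMk v₀ (b₁ • w)
      rw [Matrix.mulVec_smul, hx, smul_smul]
    · show S.lam (b' * (t * x).snd) = 0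
      have h6 : (t * x).snd = t.snd * x.fst := by
        rw [TrivSqZeroExt.snd_mul, hx1]
        simp
      have h7 : b' * (t * x).snd = algebraMap (ZMod (ffPlaceAt p).p) k
          (S.ω (primeLocalToGlobal (pPrime p) s)) * (b' * t.snd) := by
        rw [h6, hxχ, S.hχ _ hσ]; ring
      rw [h7, S.lam_algebraMap_mul]
      have h8 : S.lam (b' * t.snd) = 0 := ht
      rw [h8, mul_zero]
  · intro σ hσ
    exact hcc σ hσ

end Peu

end

end Fermat.Agent.TW
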