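/-
P10 / G7 WP-D (helper8): **the flat local condition at `p` in the reducible case**:
`ff_contractLocP_flat_red` : if `ρbar` (over a finite field of characteristic `p ≥ 3`, with
cyclotomic determinant) has a line which is stable under the decomposition group at `p`, then
`ContractLocP p ρbar b (condFlat p)` holds.

The local condition is `0` if `ρbar` has no flat lift to `k[ε]` at all; otherwise `ρbar|_{D_p}` is
an extension of an unramified character by a character which is cyclotomic on inertia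
(`tk_flat_line`), and the local condition consists of the classes of the cocycles with values in
the Borel subalgebra, unramified diagonal part and peu ramifié nilpotent part (`tkBorelClasses`).
-/
import Fermat.Agent.Lib.TW.Ord.FlatTangent
import Fermat.Agent.Lib.TW.BaseChange

set_option autoImplicit false
set_option linter.style.haveILetI false

open Fermat.Agent.S53Lib groupCohomology ExtCitation Polynomial CategoryTheory IsLocalRing Matrix

namespace Fermat.Agent.TW

noncomputable section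

local notation "Qb" => AlgebraicClosure ℚ

/-- **(C-LOC-p) for the flat condition, reducible case** (WP-D) -/
theorem ff_contractLocP_flat_red {k : Type} [Field k] [Finite k] (p : ℕ) [Fact p.Prime]
    (hp2 : p ≠ 2) [Algebra (ZMod p) k] (ρbar : ResidualGaloisRep k)
    (b : Module.Basis (Fin 2) k ρbar.V)
    (hdetbar : (GaloisRepAdic.ofResidualGaloisRep ρbar).DetIsCyclotomic p)
    (hred : ∃ v₀ : ρbar.V, v₀ ≠ 0 ∧ ∀ σ ∈ (ffPlaceAt p).D, ∃ x : k, ρbar.ρ σ v₀ = x • v₀) :
    ContractLocP p ρbar b (condFlat p) := by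
  classical
  have hp : p.Prime := Fact.out
  have hp3 : 3 ≤ p := by
    have h2 := hp.two_le
    omega
  -- matrix form of the stable line
  have hredM : ∃ v₁ : Fin 2 → k, v₁ ≠ 0 ∧
      ∀ σ ∈ (ffPlaceAt p).D, ∃ x : k, rbarMat ρbar b σ *ᵥ v₁ = x • v₁ := by
    obtain ⟨v, hv0, hvD⟩ := hred
    refine ⟨b.equivFun v, ?_, fun σ hσ => ?_⟩
    · intro h0
      exact hv0 (b.equivFun.map_eq_zero_iff.1 h0)
    · obtain ⟨x, hx⟩ := hvD σ hσ
      refine ⟨x, ?_⟩
      show LinearMap.toMatrix b b (ρbar.ρ σ) *ᵥ b.equivFun v = x • b.equivFun v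
      rw [Module.Basis.equivFun_apply, LinearMap.toMatrix_mulVec_repr, hx, map_smul]
      rfl
  -- the basic data
  obtain ⟨S₀, -, -, hω₀⟩ := tk_exists_setup p hp3 (cycloK p k) (fun _ _ => rfl)
  have hdetI : ∀ σ ∈ (ffPlaceAt p).I,
      (rbarMat ρbar b σ).det = algebraMap (ZMod (ffPlaceAt p).p) k (S₀.ω σ) := by
    intro σ _
    rw [tw_det_rbarMat_eq hdetbar, hω₀ σ]
    rfl
  by_cases hex : ∃ (r : GQ →* Matrix (Fin 2) (Fin 2) (DualNumber k))
      (h : MatCts (DualNumber k) r), IsDualLift ρbar b r ∧ (ofMat r h).IsFlatAt p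
  · obtain ⟨r₀, h₀, hr₀, hfl₀⟩ := hex
    obtain ⟨M₀, hM₀, hsc₀⟩ := ff_exists_model_of_flat p r₀ h₀ hfl₀
    obtain ⟨N, hN, hscN⟩ := tk_exists_model_bar r₀ hr₀ M₀ hM₀ hsc₀
    obtain ⟨v₀, hv, -⟩ := tk_flat_line (rbarMat_one ρbar b) (rbarMat_mul ρbar b) N hN hscN hredM
      S₀.hζ S₀.ω (fun σ _ => S₀.hω σ) hdetI S₀.hφD S₀.hφ S₀.hι₀ S₀.hι₀ω
    obtain ⟨w, hw⟩ := tk_exists_dual hv.ne_zero
    obtain ⟨S, hSχ, hSφ, hSω⟩ := tk_exists_setupD p hp3 hdetbar hv hw
    refine ⟨tkBorelClasses S (pPrime p) (ad0Rep ρbar) (tkFormN ρbar b w) (tkFormH ρbar b v₀ w)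
      (tkFormB ρbar b v₀), tkBorelClasses_le_locCont _ _ _ _ _ _, ?_, ?_⟩
    · exact tk_finrank_flatOrd_le p hp3 S hSχ hSφ hv hw (tk_peu_residual p S hSχ hv hw N)
    · intro ρ' r h hr hdet hequiv hcond
      have hfl : (ofMat r h).IsFlatAt p := isFlatAt_of_isEquiv hequiv hcond.2
      obtain ⟨M, hM, hsc⟩ := ff_exists_model_of_flat p r h hfl
      have hdetS : ∀ σ ∈ (ffPlaceAt p).I,
          (rbarMat ρbar b σ).det = algebraMap (ZMod (ffPlaceAt p).p) k (S.ω σ) := by
        intro σ _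
        rw [tw_det_rbarMat_eq hdetbar, hSω σ]
        rfl
      obtain ⟨b₁, -, hD, hI⟩ := tk_flat_dual_line (rbarMat_one ρbar b) (rbarMat_mul ρbar b) r hr M hM
        hsc hredM S.hζ S.ω (fun σ _ => S.hω σ) hdetS S.hφD S.hφ S.hι₀ S.hι₀ω hv hw
      exact tk_tangent_mem_flatOrd p S hSχ hv hw r h hr hdet M b₁ hD hI
  · refine ⟨⊥, bot_le, ?_, ?_⟩
    · rw [finrank_bot]
      exact Nat.zero_le _
    · intro ρ' r h hr hdet hequiv hcond
      exact absurd ⟨r, h, hr, isFlatAt_of_isEquiv hequiv hcond.2⟩ hex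

end

end Fermat.Agent.TW
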