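/-
P10 / G7 WP-D (helper8): the Kummer invariants of a cocycle of the decomposition group with values
in `k(χ)`, for a character `χ` which is only defined on the decomposition group (`χ|_I = ω`).

This is the variant of `Lib/TW/Kum/Core.lean` in which `χ : G_ℚ → k` is any function which is
multiplicative on `D` (the character `x₀ / z₀` of an ordinary residual representation does not
extend to `G_ℚ` in any obvious way).
-/
import Fermat.Agent.Lib.TW.Kum.Generator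

set_option autoImplicit false
set_option linter.style.haveILetI false

namespace Fermat.Agent.TW

open Fermat.Agent.S05Lib

local notation "Qb" => AlgebraicClosure ℚ
local notation "GQ" => (AlgebraicClosure ℚ ≃ₐ[ℚ] AlgebraicClosure ℚ)

/-- the data for the Kummer count, with a character of the decomposition group -/
structure TkSetupD (𝔓 : FFPlace) (k : Type) [Field k] [Algebra (ZMod 𝔓.p) k] where
  /-- a primitive `p`-th root of unity -/
  ζ : Qb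
  hζ : IsPrimitiveRoot ζ 𝔓.p
  /-- the cyclotomic character -/
  ω : GQ → ZMod 𝔓.p
  hω : ∀ σ : GQ, σ ζ = lfZPow ζ (ω σ)
  /-- the character -/
  χ : GQ → k
  hχ1 : χ 1 = 1
  hχmul : ∀ σ ∈ 𝔓.D, ∀ τ ∈ 𝔓.D, χ (σ * τ) = χ σ * χ τ
  hχ : ∀ σ ∈ 𝔓.I, χ σ = algebraMap (ZMod 𝔓.p) k (ω σ)
  /-- a nondegenerate linear form -/
  lam : k →ₗ[ZMod 𝔓.p] ZMod 𝔓.p
  hlam : ∀ x : k, (∀ b : k, lam (b * x) = 0) → x = 0
  /-- a Frobenius element -/
  φ : GQ
  hφD : φ ∈ 𝔓.D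
  hφ : ∀ x : Qb, 𝔓.v.Ge x 0 → 𝔓.v.Gt (φ x - x ^ 𝔓.p) 0
  /-- an inertia element on which `ω` is non-trivial -/
  ι₀ : GQ
  hι₀ : ι₀ ∈ 𝔓.I
  hι₀ω : ω ι₀ ≠ 1

namespace TkSetupD

noncomputable section

variable {𝔓 : FFPlace} {k : Type} [Field k] [Algebra (ZMod 𝔓.p) k] (S : TkSetupD 𝔓 k)

lemma hζp : S.ζ ^ 𝔓.p = 1 := S.hζ.pow_eq_one

lemma chi_mul_inv {σ : GQ} (hσ : σ ∈ 𝔓.D) : S.χ σ * S.χ σ⁻¹ = 1 := by
  rw [← S.hχmul σ hσ σ⁻¹ (inv_mem hσ), mul_inv_cancel, S.hχ1]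

lemma chi_inv_mul {σ : GQ} (hσ : σ ∈ 𝔓.D) : S.χ σ⁻¹ * S.χ σ = 1 := by
  rw [mul_comm]; exact S.chi_mul_inv hσ

lemma chi_ne_zero {σ : GQ} (hσ : σ ∈ 𝔓.D) : S.χ σ ≠ 0 := by
  intro h
  have := S.chi_mul_inv hσ
  rw [h, zero_mul] at this
  exact zero_ne_one this

/-- `χ`-cocycles on the decomposition group -/
def IsCoc (c : GQ → k) : Prop :=
  ∀ σ ∈ 𝔓.D, ∀ τ ∈ 𝔓.D, c (σ * τ) = S.χ σ * c τ + c σ

/-- `χ`-cocycles on the decomposition group which are constant modulo a finite level -/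
def Coc (c : GQ → k) : Prop :=
  S.IsCoc c ∧ ∃ F : IntermediateField ℚ Qb, FiniteDimensional ℚ F ∧
    ∀ σ ∈ 𝔓.D, ∀ τ ∈ 𝔓.D, (∀ x ∈ F, σ x = τ x) → c σ = c τ

variable {S} {c c' : GQ → k}

lemma IsCoc.one (h : S.IsCoc c) : c 1 = 0 := by
  have := h 1 (one_mem _) 1 (one_mem _)
  rw [mul_one, S.hχ1, one_mul] at this
  exact left_eq_add.1 this

lemma IsCoc.inv (h : S.IsCoc c) {σ : GQ} (hσ : σ ∈ 𝔓.D) :
    c σ⁻¹ = -(S.χ σ⁻¹) * c σ := by
  have h1 := h σ hσ σ⁻¹ (inv_mem hσ)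
  rw [mul_inv_cancel, h.one] at h1
  have h2 : S.χ σ * c σ⁻¹ = - c σ := by linear_combination -h1
  have h3 : c σ⁻¹ = S.χ σ⁻¹ * (S.χ σ * c σ⁻¹) := by
    rw [← mul_assoc, S.chi_inv_mul hσ, one_mul]
  rw [h3, h2]
  ring

/-- the conjugation formula -/
lemma IsCoc.conj (h : S.IsCoc c) {σ τ : GQ} (hσ : σ ∈ 𝔓.D) (hτ : τ ∈ 𝔓.D) :
    c (σ⁻¹ * τ * σ) = S.χ σ⁻¹ * (c τ + (S.χ τ - 1) * c σ) := by
  rw [mul_assoc, h _ (inv_mem hσ) _ (mul_mem hτ hσ), h _ hτ _ hσ, h.inv hσ]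
  ring

lemma IsCoc.sub (h : S.IsCoc c) (h' : S.IsCoc c') : S.IsCoc (c - c') := by
  intro σ hσ τ hτ
  simp only [Pi.sub_apply]
  rw [h σ hσ τ hτ, h' σ hσ τ hτ]
  ring

lemma IsCoc.add (h : S.IsCoc c) (h' : S.IsCoc c') : S.IsCoc (c + c') := by
  intro σ hσ τ hτ
  simp only [Pi.add_apply]
  rw [h σ hσ τ hτ, h' σ hσ τ hτ]
  ring

lemma IsCoc.smul (h : S.IsCoc c) (x : k) : S.IsCoc (x • c) := by
  intro σ hσ τ hτ
  simp only [Pi.smul_apply, smul_eq_mul]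
  rw [h σ hσ τ hτ]
  ring

variable (S) in
lemma isCoc_cob (m : k) : S.IsCoc (fun σ => (S.χ σ - 1) * m) := by
  intro σ hσ τ hτ
  simp only []
  rw [S.hχmul σ hσ τ hτ]
  ring

variable (S) in
lemma isCoc_zero : S.IsCoc 0 := by
  intro σ _ τ _
  simp

lemma Coc.sub (h : S.Coc c) (h' : S.Coc c') : S.Coc (c - c') := by
  obtain ⟨h1, F, hF, h2⟩ := h
  obtain ⟨h1', F', hF', h2'⟩ := h'
  refine ⟨h1.sub h1', F ⊔ F', ?_, fun σ hσ τ hτ hx => ?_⟩
  · haveI := hF; haveI := hF'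
    exact IntermediateField.finiteDimensional_sup _ _
  · simp only [Pi.sub_apply]
    rw [h2 σ hσ τ hτ (fun x hxF => hx x ((le_sup_left : F ≤ F ⊔ F') hxF)),
      h2' σ hσ τ hτ (fun x hxF => hx x ((le_sup_right : F' ≤ F ⊔ F') hxF))]

lemma Coc.add (h : S.Coc c) (h' : S.Coc c') : S.Coc (c + c') := by
  obtain ⟨h1, F, hF, h2⟩ := h
  obtain ⟨h1', F', hF', h2'⟩ := h'
  refine ⟨h1.add h1', F ⊔ F', ?_, fun σ hσ τ hτ hx => ?_⟩
  · haveI := hF; haveI := hF'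
    exact IntermediateField.finiteDimensional_sup _ _
  · simp only [Pi.add_apply]
    rw [h2 σ hσ τ hτ (fun x hxF => hx x ((le_sup_left : F ≤ F ⊔ F') hxF)),
      h2' σ hσ τ hτ (fun x hxF => hx x ((le_sup_right : F' ≤ F ⊔ F') hxF))]

lemma Coc.smul (h : S.Coc c) (x : k) : S.Coc (x • c) := by
  obtain ⟨h1, F, hF, h2⟩ := h
  refine ⟨h1.smul x, F, hF, fun σ hσ τ hτ hx => ?_⟩
  simp only [Pi.smul_apply]
  rw [h2 σ hσ τ hτ hx]

variable (S) in
lemma coc_zero : S.Coc 0 :=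
  ⟨S.isCoc_zero, ⊥, inferInstance, fun _ _ _ _ _ => rfl⟩

variable (S)

/-- the unit `β = ω(φ) χ(φ)⁻¹` -/
def beta : k := algebraMap (ZMod 𝔓.p) k (S.ω S.φ) * S.χ S.φ⁻¹

/-- the `ω`-cocycle `ι ↦ lam (b * c ι)` of the inertia group -/
def aux (c : GQ → k) (b : k) : GQ → ZMod 𝔓.p := fun ι => S.lam (b * c ι)

/-- **the Kummer invariants** of a cocycle -/
def theta (c : GQ → k) (b : k) : ZMod 𝔓.p × 𝔓.tkKappa := 𝔓.tkGenInv S.ζ (S.aux c b)

lemma lam_algebraMap_mul (w : ZMod 𝔓.p) (x : k) :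
    S.lam (algebraMap (ZMod 𝔓.p) k w * x) = w * S.lam x := by
  rw [← Algebra.smul_def, map_smul, smul_eq_mul]

variable {S}

lemma Coc.aux_coc (h : S.Coc c) (b : k) : ∀ σ ∈ 𝔓.I, ∀ τ ∈ 𝔓.I,
    S.aux c b (σ * τ) = S.aux c b σ + S.ω σ * S.aux c b τ := by
  intro σ hσ τ hτ
  unfold aux
  rw [h.1 σ (𝔓.I_le_D hσ) τ (𝔓.I_le_D hτ), S.hχ σ hσ, mul_add, map_add, add_comm,
    ← S.lam_algebraMap_mul]
  congr 2
  ring

lemma Coc.exists_gen (h : S.Coc c) (b : k) : ∃ y, 𝔓.TkGen S.ζ (S.aux c b) y := by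
  obtain ⟨F, hF, hlev⟩ := h.2
  refine 𝔓.tkGen_exists S.hζ S.ω (fun σ _ => S.hω σ) _ (h.aux_coc b) F hF ?_
  intro σ hσ τ hτ hx
  unfold aux
  rw [hlev σ (𝔓.I_le_D hσ) τ (𝔓.I_le_D hτ) hx]

/-- existence of Kummer generators for a function which is a cocycle on the inertia group only -/
lemma exists_gen_of_inertia
    (hcoc : ∀ σ ∈ 𝔓.I, ∀ τ ∈ 𝔓.I, c (σ * τ) = S.χ σ * c τ + c σ)
    (hlev : ∃ F : IntermediateField ℚ Qb, FiniteDimensional ℚ F ∧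
      ∀ σ ∈ 𝔓.I, ∀ τ ∈ 𝔓.I, (∀ x ∈ F, σ x = τ x) → c σ = c τ) (b : k) :
    ∃ y, 𝔓.TkGen S.ζ (S.aux c b) y := by
  obtain ⟨F, hF, hlev⟩ := hlev
  refine 𝔓.tkGen_exists S.hζ S.ω (fun σ _ => S.hω σ) _ ?_ F hF ?_
  · intro σ hσ τ hτ
    unfold aux
    rw [hcoc σ hσ τ hτ, S.hχ σ hσ, mul_add, map_add, add_comm, ← S.lam_algebraMap_mul]
    congr 2
    ring
  · intro σ hσ τ hτ hx
    unfold aux
    rw [hlev σ hσ τ hτ hx]

lemma Coc.theta_add (h : S.Coc c) (h' : S.Coc c') (b : k) :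
    S.theta (c + c') b = S.theta c b + S.theta c' b := by
  obtain ⟨y, hy⟩ := h.exists_gen b
  obtain ⟨y', hy'⟩ := h'.exists_gen b
  have e : S.aux (c + c') b = S.aux c b + S.aux c' b := by
    funext ι
    simp only [aux, Pi.add_apply, mul_add, map_add]
  unfold theta
  rw [e]
  exact hy.tkGenInv_add S.hζp hy'

lemma Coc.theta_sub (h : S.Coc c) (h' : S.Coc c') (b : k) :
    S.theta (c - c') b = S.theta c b - S.theta c' b := by
  have := (h.sub h').theta_add h' b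
  rw [sub_add_cancel] at this
  rw [this, add_sub_cancel_right]

lemma Coc.theta_add_right (h : S.Coc c) (b b' : k) :
    S.theta c (b + b') = S.theta c b + S.theta c b' := by
  obtain ⟨y, hy⟩ := h.exists_gen b
  obtain ⟨y', hy'⟩ := h.exists_gen b'
  have e : S.aux c (b + b') = S.aux c b + S.aux c b' := by
    funext ι
    simp only [aux, Pi.add_apply, add_mul, map_add]
  unfold theta
  rw [e]
  exact hy.tkGenInv_add S.hζp hy'

variable (S) in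
lemma theta_smul (c : GQ → k) (x b : k) : S.theta (x • c) b = S.theta c (b * x) := by
  have e : S.aux (x • c) b = S.aux c (b * x) := by
    funext ι
    simp only [aux, Pi.smul_apply, smul_eq_mul, mul_assoc]
  unfold theta
  rw [e]

variable (S) in
lemma theta_zero (b : k) : S.theta 0 b = 0 := by
  have h : 𝔓.TkGen S.ζ (S.aux 0 b) 1 := by
    refine ⟨one_ne_zero, fun ι _ => ?_⟩
    simp only [aux, Pi.zero_apply, mul_zero, map_zero, lfZPow_zero, map_one, mul_one]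
  unfold theta
  rw [h.tkGenInv_eq S.hζp, one_pow, 𝔓.tkInv_one]

variable (S) in
/-- the invariants only depend on the restriction to the inertia group -/
lemma theta_congr {c c' : GQ → k} (h : ∀ ι ∈ 𝔓.I, c ι = c' ι) (b : k) :
    S.theta c b = S.theta c' b := by
  unfold theta
  refine FFPlace.tkGenInv_congr S.hζp (fun ι hι => ?_)
  unfold aux
  rw [h ι hι]

/-- **Frobenius semilinearity** of the Kummer invariants -/
theorem Coc.theta_frob (h : S.Coc c) (b : k) :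
    S.theta c (S.beta * b) = ((S.theta c b).1, (S.theta c b).2 ^ 𝔓.p) := by
  obtain ⟨y, hy⟩ := h.exists_gen b
  obtain ⟨y'', hy''⟩ := h.exists_gen (S.beta * b)
  set j : ZMod 𝔓.p := S.lam (S.beta * b * c S.φ) with hj
  have h1 := hy.frob S.hζp S.hφD (S.hω S.φ)
  have h2 := hy''.mul S.hζp (FFPlace.tkGen_cob S.hζp S.ω (fun σ _ => S.hω σ) j)
  -- the two functions agree on inertia
  have hagree : ∀ ι ∈ 𝔓.I, (fun ι => S.ω S.φ * S.aux c b (S.φ⁻¹ * ι * S.φ)) ι =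
      (S.aux c (S.beta * b) + fun ι => (S.ω ι - 1) * j) ι := by
    intro ι hι
    simp only [Pi.add_apply, aux]
    rw [h.1.conj S.hφD (𝔓.I_le_D hι), S.hχ ι hι, ← S.lam_algebraMap_mul, hj,
      ← S.lam_algebraMap_mul, ← map_add]
    congr 1
    unfold beta
    rw [map_sub, map_one]
    ring
  have h3 := h1.congr hagree
  have h4 := FFPlace.TkGen.tkInv_eq S.hζp h2 h3
  unfold theta
  rw [hy''.tkGenInv_eq S.hζp, hy.tkGenInv_eq S.hζp]
  have h5 : (y'' * lfZPow S.ζ j) ^ 𝔓.p = y'' ^ 𝔓.p := by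
    rw [mul_pow, lfZPow_pow S.hζp, mul_one]
  rw [h5, ← map_pow] at h4
  rw [← h4]
  exact 𝔓.tkInv_frob S.hφD S.hφ (hy.pow_mem_K0 S.hζp) hy.pow_ne_zero

/-- **trivial invariants force a coboundary** -/
theorem Coc.eq_cob_of_theta_eq_zero (hp3 : 3 ≤ 𝔓.p) (h : S.Coc c) (hθ : ∀ b, S.theta c b = 0) :
    ∃ m : k, ∀ σ ∈ 𝔓.D, c σ = (S.χ σ - 1) * m := by
  set u₀ : k := S.χ S.ι₀ - 1 with hu₀
  have hu₀' : u₀ = algebraMap (ZMod 𝔓.p) k (S.ω S.ι₀ - 1) := by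
    rw [hu₀, S.hχ _ S.hι₀, map_sub, map_one]
  have hu₀0 : u₀ ≠ 0 := by
    rw [hu₀', Ne, map_eq_zero_iff _ (algebraMap (ZMod 𝔓.p) k).injective, sub_eq_zero]
    exact S.hι₀ω
  set m : k := c S.ι₀ / u₀ with hm
  set c' : GQ → k := c - fun σ => (S.χ σ - 1) * m with hc'
  have hc'coc : S.IsCoc c' := h.1.sub (S.isCoc_cob m)
  have hc'ι₀ : c' S.ι₀ = 0 := by
    simp only [hc', Pi.sub_apply]
    rw [← hu₀, hm, mul_div_cancel₀ _ hu₀0, sub_self]
  -- `c'` vanishes on inertia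
  have hI : ∀ ι ∈ 𝔓.I, c' ι = 0 := by
    have hb : ∀ b : k, ∀ ι ∈ 𝔓.I, S.lam (b * c' ι) = 0 := by
      intro b
      obtain ⟨y, hy⟩ := h.exists_gen b
      have hinv : 𝔓.tkInv (y ^ 𝔓.p) = 0 := by
        rw [← hy.tkGenInv_eq S.hζp]; exact hθ b
      obtain ⟨j, hj⟩ := hy.eq_cob_of_tkInv_eq_zero hp3 S.hζ S.ω (fun σ _ => S.hω σ) hinv
      have hform : ∀ ι ∈ 𝔓.I, S.lam (b * c' ι) = (S.ω ι - 1) * (j - S.lam (b * m)) := by
        intro ι hι
        have h1 : b * c' ι = b * c ι - algebraMap (ZMod 𝔓.p) k (S.ω ι - 1) * (b * m) := by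
          simp only [hc', Pi.sub_apply]
          rw [S.hχ ι hι, map_sub, map_one]
          ring
        rw [h1, map_sub, S.lam_algebraMap_mul]
        have h2 : S.lam (b * c ι) = (S.ω ι - 1) * j := hj ι hι
        rw [h2]
        ring
      have h0 := hform S.ι₀ S.hι₀
      rw [hc'ι₀, mul_zero, map_zero] at h0
      have hj' : j - S.lam (b * m) = 0 := by
        rcases mul_eq_zero.1 h0.symm with h3 | h3
        · exact absurd (sub_eq_zero.1 h3) S.hι₀ω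
        · exact h3
      intro ι hι
      rw [hform ι hι, hj', mul_zero]
    intro ι hι
    exact S.hlam _ (fun b => hb b ι hι)
  -- `c'` vanishes on the decomposition group
  have hD : ∀ σ ∈ 𝔓.D, c' σ = 0 := by
    intro σ hσ
    have h1 := hc'coc.conj (inv_mem hσ) (𝔓.I_le_D S.hι₀)
    rw [inv_inv, hI _ (by
      have := 𝔓.conj_mem_I hσ S.hι₀
      exact this), hc'ι₀, zero_add, ← hu₀] at h1
    have h2 : c' σ⁻¹ = 0 := by
      rcases mul_eq_zero.1 h1.symm with h3 | h3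
      · exact absurd h3 (S.chi_ne_zero hσ)
      · rcases mul_eq_zero.1 h3 with h4 | h4
        · exact absurd h4 hu₀0
        · exact h4
    have h3 := hc'coc.inv (inv_mem hσ)
    rw [inv_inv, h2, mul_zero] at h3
    exact h3
  refine ⟨m, fun σ hσ => ?_⟩
  have := hD σ hσ
  simp only [hc', Pi.sub_apply] at this
  exact sub_eq_zero.1 this

lemma omega_phi_ne_zero (hp3 : 3 ≤ 𝔓.p) : S.ω S.φ ≠ 0 := by
  intro h0
  have h1 := S.hω S.φ
  rw [h0, lfZPow_zero] at h1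
  have h2 : S.ζ = 1 := by
    have := congrArg S.φ.symm h1
    rwa [AlgEquiv.symm_apply_apply, map_one] at this
  exact S.hζ.ne_one (by omega) h2

lemma beta_ne_zero (hp3 : 3 ≤ 𝔓.p) : S.beta ≠ 0 := by
  unfold beta
  refine mul_ne_zero ?_ (S.chi_ne_zero (inv_mem S.hφD))
  rw [Ne, map_eq_zero_iff _ (algebraMap (ZMod 𝔓.p) k).injective]
  exact S.omega_phi_ne_zero hp3

end

end TkSetupD

end Fermat.Agent.TW
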