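/-
P10 / G7 WP-D (helper8): the flat local condition in the ordinary (reducible) case, abstractly.

`M₀` is a representation of `G_ℚ` (in the application: `ad⁰ ρbar`), `e ∈ M₀` spans a line on which
the decomposition group acts through `χ` (`χ|_I = ω`), and `gN, gH, gB : M₀ → k` are linear forms:
`ker gB` plays the role of the Borel subalgebra `𝔟`, `gH` of the projection `𝔟 → 𝔟/𝔫 = k` and `gN`
of the coordinate on `𝔫 = k e`.

* `tkBorelCocycles` : the level-constant cocycles of `G_q` with values in `𝔟`, whose `𝔟/𝔫`-part is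
  unramified and whose `𝔫`-part is peu ramifié on the inertia group;
* `tkBorelClasses` : their classes;
* `tk_finrank_borelClasses_le` : `dim ≤ h⁰ + 1`.
-/
import Fermat.Agent.Lib.TW.Ord.CoreD
import Fermat.Agent.Lib.TW.Kum.Count
import Fermat.Agent.Lib.TW.Local.UnramifiedDim

set_option autoImplicit false
set_option linter.style.haveILetI false
set_option linter.unusedSectionVars false
set_option maxSynthPendingDepth 3

open Fermat.Agent.S53Lib groupCohomology ExtCitation CategoryTheory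

namespace Fermat.Agent.TW

noncomputable section

local notation "Qb" => AlgebraicClosure ℚ

variable {𝔓 : FFPlace} {k : Type} [Field k] [Algebra (ZMod 𝔓.p) k] (S : TkSetupD 𝔓 k)
  (q : Nat.Primes) (M₀ : Rep k GQ) (gN gH gB : M₀.V →ₗ[k] k)

/-- the peu ramifié condition for a function `γ : G_ℚ → k` (only its values on the inertia group
matter): all the `ω`-cocycles `ι ↦ lam (b γ(ι))` have Kummer generators of valuation in `p ℤ` -/
def TkSetupD.IsPeu (γ : GQ → k) : Prop :=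
  ∀ b : k, ∃ y : Qb, 𝔓.TkGen S.ζ (S.aux γ b) y ∧ (𝔓.tkInv (y ^ 𝔓.p)).1 = 0

variable {S}

lemma TkSetupD.IsPeu.add {γ γ' : GQ → k} (h : S.IsPeu γ) (h' : S.IsPeu γ') :
    S.IsPeu (γ + γ') := by
  intro b
  obtain ⟨y, hy, hy0⟩ := h b
  obtain ⟨y', hy', hy0'⟩ := h' b
  have e : S.aux (γ + γ') b = S.aux γ b + S.aux γ' b := by
    funext ι
    simp only [TkSetupD.aux, Pi.add_apply, mul_add, map_add]
  refine ⟨y * y', ?_, ?_⟩
  · rw [e]
    exact hy.mul S.hζp hy'
  · rw [mul_pow, 𝔓.tkInv_mul (hy.pow_mem_K0 S.hζp) hy.pow_ne_zero (hy'.pow_mem_K0 S.hζp)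
      hy'.pow_ne_zero]
    show (𝔓.tkInv (y ^ 𝔓.p)).1 + (𝔓.tkInv (y' ^ 𝔓.p)).1 = 0
    rw [hy0, hy0', add_zero]

variable (S) in
lemma TkSetupD.isPeu_zero : S.IsPeu 0 := by
  intro b
  refine ⟨1, ⟨one_ne_zero, fun ι _ => ?_⟩, ?_⟩
  · simp only [TkSetupD.aux, Pi.zero_apply, mul_zero, map_zero, lfZPow_zero, map_one, mul_one]
  · rw [one_pow, 𝔓.tkInv_one]
    rfl

lemma TkSetupD.IsPeu.smul {γ : GQ → k} (h : S.IsPeu γ) (x : k) : S.IsPeu (x • γ) := by
  intro b
  obtain ⟨y, hy, hy0⟩ := h (b * x)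
  have e : S.aux (x • γ) b = S.aux γ (b * x) := by
    funext ι
    simp only [TkSetupD.aux, Pi.smul_apply, smul_eq_mul, mul_assoc]
  exact ⟨y, by rw [e]; exact hy, hy0⟩

lemma TkSetupD.IsPeu.congr {γ γ' : GQ → k} (h : S.IsPeu γ) (hγ : ∀ ι ∈ 𝔓.I, γ ι = γ' ι) :
    S.IsPeu γ' := by
  intro b
  obtain ⟨y, hy, hy0⟩ := h b
  refine ⟨y, hy.congr (fun ι hι => ?_), hy0⟩
  simp only [TkSetupD.aux]
  rw [hγ ι hι]

/-- for a cocycle the peu ramifié condition is the vanishing of the first Kummer invariant -/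
lemma TkSetupD.IsPeu.theta_fst {γ : GQ → k} (h : S.IsPeu γ) (b : k) : (S.theta γ b).1 = 0 := by
  obtain ⟨y, hy, hy0⟩ := h b
  unfold TkSetupD.theta
  rw [hy.tkGenInv_eq S.hζp]
  exact hy0

variable (S)

/-- the coefficient function of a cocycle, as a function on `G_ℚ` -/
def tkCoefN (c : cocycles₁ (locAt q M₀)) : GQ → k := tkDesc q (fun τ => gN (c τ))

theorem tkCoefN_add (c c' : cocycles₁ (locAt q M₀)) :
    tkCoefN q M₀ gN (c + c') = tkCoefN q M₀ gN c + tkCoefN q M₀ gN c' := by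
  unfold tkCoefN
  rw [← tkDesc_add]
  congr 1
  funext τ
  exact map_add gN (c τ) (c' τ)

theorem tkCoefN_sub (c c' : cocycles₁ (locAt q M₀)) :
    tkCoefN q M₀ gN (c - c') = tkCoefN q M₀ gN c - tkCoefN q M₀ gN c' := by
  unfold tkCoefN
  rw [← tkDesc_sub]
  congr 1
  funext τ
  exact map_sub gN (c τ) (c' τ)

theorem tkCoefN_smul (x : k) (c : cocycles₁ (locAt q M₀)) :
    tkCoefN q M₀ gN (x • c) = x • tkCoefN q M₀ gN c := by
  unfold tkCoefN
  rw [← tkDesc_smul]
  congr 1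
  funext τ
  exact map_smul gN x (c τ)

theorem tkCoefN_zero : tkCoefN q M₀ gN (0 : cocycles₁ (locAt q M₀)) = 0 := by
  unfold tkCoefN
  rw [← tkDesc_zero q]
  congr 1
  funext τ
  exact map_zero gN

theorem tkCoefN_apply {c : cocycles₁ (locAt q M₀)}
    (hc : IsLevelConstant₁ (primeLocalToGlobal q) c) (τ : primeLocalGaloisGroup q) :
    tkCoefN q M₀ gN c (primeLocalToGlobal q τ) = gN (c τ) :=
  tkDesc_apply q (hc.comp (fun x => gN x)) τ

/-- **the Borel cocycles**: level-constant cocycles with values in `ker gB`, with `gH`-part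
vanishing on the inertia group and peu ramifié `gN`-part -/
def tkBorelCocycles : Submodule k (cocycles₁ (locAt q M₀)) where
  carrier := {c | IsLevelConstant₁ (primeLocalToGlobal q) c ∧ (∀ τ, gB (c τ) = 0) ∧
    (∀ τ ∈ twLocInertia q, gH (c τ) = 0) ∧ S.IsPeu (tkCoefN q M₀ gN c)}
  add_mem' := by
    rintro c c' ⟨h1, h2, h3, h4⟩ ⟨h1', h2', h3', h4'⟩
    refine ⟨h1.add h1', fun τ => ?_, fun τ hτ => ?_, ?_⟩
    · show gB (c τ + c' τ) = 0
      rw [map_add, h2 τ, h2' τ, add_zero]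
    · show gH (c τ + c' τ) = 0
      rw [map_add, h3 τ hτ, h3' τ hτ, add_zero]
    · rw [tkCoefN_add]
      exact h4.add h4'
  zero_mem' := by
    refine ⟨isLevelConstant₁_const _ 0, fun τ => map_zero gB, fun τ _ => map_zero gH, ?_⟩
    rw [tkCoefN_zero]
    exact S.isPeu_zero
  smul_mem' := by
    rintro x c ⟨h1, h2, h3, h4⟩
    refine ⟨h1.comp (fun y => x • y), fun τ => ?_, fun τ hτ => ?_, ?_⟩
    · show gB (x • c τ) = 0
      rw [map_smul, h2 τ, smul_zero]
    · show gH (x • c τ) = 0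
      rw [map_smul, h3 τ hτ, smul_zero]
    · rw [tkCoefN_smul]
      exact h4.smul x

/-- **the Borel classes** -/
def tkBorelClasses : Submodule k (H1 (locAt q M₀)) :=
  (tkBorelCocycles S q M₀ gN gH gB).map (H1π (locAt q M₀)).hom

theorem mem_tkBorelClasses_iff (x : H1 (locAt q M₀)) :
    x ∈ tkBorelClasses S q M₀ gN gH gB ↔ ∃ c : cocycles₁ (locAt q M₀),
      IsLevelConstant₁ (primeLocalToGlobal q) c ∧ (∀ τ, gB (c τ) = 0) ∧
      (∀ τ ∈ twLocInertia q, gH (c τ) = 0) ∧ S.IsPeu (tkCoefN q M₀ gN c) ∧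
        (H1π (locAt q M₀)).hom c = x := by
  unfold tkBorelClasses
  rw [Submodule.mem_map]
  constructor
  · rintro ⟨c, ⟨h1, h2, h3, h4⟩, h5⟩
    exact ⟨c, h1, h2, h3, h4, h5⟩
  · rintro ⟨c, h1, h2, h3, h4, h5⟩
    exact ⟨c, ⟨h1, h2, h3, h4⟩, h5⟩

theorem tkBorelClasses_le_locCont : tkBorelClasses S q M₀ gN gH gB ≤ locCont q M₀ := by
  intro x hx
  obtain ⟨c, h1, -, -, -, h5⟩ := (mem_tkBorelClasses_iff S q M₀ gN gH gB x).1 hx
  exact (mem_continuousH1_iff _ _ _).2 ⟨c, h1, h5⟩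

/-! ### The count -/

variable {S q}

/-- the descent of a level-constant `χ`-cocycle of the local Galois group is a cocycle of the
decomposition group -/
theorem tkDesc_cocD (hq : TkOnto 𝔓 q) {γ : primeLocalGaloisGroup q → k}
    (hγ : IsLevelConstant₁ (primeLocalToGlobal q) γ)
    (hmul : ∀ s t, γ (s * t) = S.χ (primeLocalToGlobal q s) * γ t + γ s) :
    S.Coc (tkDesc q γ) := by
  refine ⟨?_, ?_⟩
  · intro σ hσ τ hτ
    obtain ⟨s, rfl⟩ := hq.2 σ hσ
    obtain ⟨t, rfl⟩ := hq.2 τ hτ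
    rw [← map_mul, tkDesc_apply q hγ, tkDesc_apply q hγ, tkDesc_apply q hγ, hmul]
  · obtain ⟨F, hF, hFc⟩ := hγ
    refine ⟨F, hF, fun σ hσ τ hτ hx => ?_⟩
    obtain ⟨s, rfl⟩ := hq.2 σ hσ
    obtain ⟨t, rfl⟩ := hq.2 τ hτ
    rw [tkDesc_apply q ⟨F, hF, hFc⟩, tkDesc_apply q ⟨F, hF, hFc⟩]
    have h1 : t = s * (s⁻¹ * t) := by group
    rw [h1]
    refine (hFc s _ ?_).symm
    rw [IntermediateField.mem_fixingSubgroup_iff]
    intro x hxF
    rw [map_mul, map_inv]
    show (primeLocalToGlobal q s)⁻¹ (primeLocalToGlobal q t x) = x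
    rw [← hx x hxF]
    exact (primeLocalToGlobal q s).symm_apply_apply x

variable {M₀ gN gH gB}

/-- **the dimension of the Borel classes** -/
theorem tk_finrank_borelClasses_le [Finite k] [Module.Finite k M₀.V] (hp3 : 3 ≤ 𝔓.p)
    (hq : TkOnto 𝔓 q) (hs : TwLocalSurj q)
    (hφ : (primeLocalPlace q).IsFrobeniusAt S.φ (q : ℕ))
    (e : M₀.V) (hχe : ∀ σ ∈ 𝔓.D, M₀.ρ σ e = S.χ σ • e) (hgN : gN e = 1) (hgH : gH e = 0)
    (hgB : gB e = 0)
    (hdecomp : ∀ x, gB x = 0 → gH x = 0 → x = gN x • e)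
    (hHinv : ∀ σ ∈ 𝔓.D, ∀ x, gB x = 0 → gH (M₀.ρ σ x) = gH x)
    (hsm : ∃ F : IntermediateField ℚ Qb, FiniteDimensional ℚ F ∧
      ∀ s ∈ F.fixingSubgroup, M₀.ρ s = 1)
    (E : M₀.V) (hE : ∀ a : k, E ≠ a • e) (hEe : ∀ σ ∈ 𝔓.D, ∃ κ : k, M₀.ρ σ E - E = κ • e)
    (hEpeu : S.IsPeu (fun σ => gN (M₀.ρ σ E - E))) :
    Module.finrank k (tkBorelClasses S q M₀ gN gH gB) ≤
      Module.finrank k (locAt q M₀).ρ.invariants + 1 := by
  classical
  obtain ⟨τφ, hτφ⟩ := hq.2 S.φ S.hφD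
  set Z := tkBorelCocycles S q M₀ gN gH gB with hZ
  let f : Z →ₗ[k] H1 (locAt q M₀) := (H1π (locAt q M₀)).hom ∘ₗ Z.subtype
  let eM : Z →ₗ[k] k :=
    { toFun := fun c => gH ((c : cocycles₁ (locAt q M₀)) τφ)
      map_add' := fun c c' => map_add gH _ _
      map_smul' := fun x c => map_smul gH x _ }
  have heM : ∀ c : Z, eM c = gH ((c : cocycles₁ (locAt q M₀)) τφ) := fun _ => rfl
  -- additivity of the `gH`-part
  have hadd : ∀ c : Z, ∀ σ τ : primeLocalGaloisGroup q,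
      gH ((c : cocycles₁ (locAt q M₀)) (σ * τ)) =
        gH ((c : cocycles₁ (locAt q M₀)) σ) + gH ((c : cocycles₁ (locAt q M₀)) τ) := by
    intro c σ τ
    rw [tw_coc_mul, map_add, add_comm]
    congr 1
    exact hHinv _ (hq.1 σ) _ (c.2.2.1 τ)
  have hpow : ∀ c : Z, eM c = 0 → ∀ n : ℕ, gH ((c : cocycles₁ (locAt q M₀)) (τφ ^ n)) = 0 := by
    intro c hc n
    induction n with
    | zero =>
      rw [pow_zero, cocycles₁_map_one, map_zero]
    | succ n ih => rw [pow_succ, hadd, ih, zero_add]; exact hc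
  have hker : ∀ c : Z, eM c = 0 → ∀ τ, gH ((c : cocycles₁ (locAt q M₀)) τ) = 0 := by
    intro c hc τ
    obtain ⟨F, hF, hFc⟩ := c.2.1
    obtain ⟨n, ι, hι, s, hsF, rfl⟩ := tw_local_decomp q hs F hF hφ hτφ τ
    have h1 : (c : cocycles₁ (locAt q M₀)) (τφ ^ n * ι * s) =
        (c : cocycles₁ (locAt q M₀)) (τφ ^ n * ι) := hFc _ s hsF
    rw [h1, hadd, hpow c hc n, c.2.2.2.1 ι hι, add_zero]
  have hval : ∀ c : Z, eM c = 0 → ∀ τ, (c : cocycles₁ (locAt q M₀)) τ =
      gN ((c : cocycles₁ (locAt q M₀)) τ) • e :=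
    fun c hc τ => hdecomp _ (c.2.2.1 τ) (hker c hc τ)
  have hcoc : ∀ c : Z, eM c = 0 → S.Coc (tkCoefN q M₀ gN (c : cocycles₁ (locAt q M₀))) := by
    intro c hc
    refine tkDesc_cocD hq (c.2.1.comp (fun x => gN x)) (fun s t => ?_)
    show gN ((c : cocycles₁ (locAt q M₀)) (s * t)) = _
    rw [tw_coc_mul, map_add]
    congr 1
    rw [hval c hc t]
    show gN (M₀.ρ (primeLocalToGlobal q s) (gN ((c : cocycles₁ (locAt q M₀)) t) • e)) = _
    rw [map_smul, hχe _ (hq.1 s), map_smul, map_smul, hgN, smul_eq_mul, smul_eq_mul, mul_one,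
      map_smul, hgN, smul_eq_mul, mul_one, mul_comm]
  have hcob : ∀ c : Z, eM c = 0 →
      (∀ b, S.theta (tkCoefN q M₀ gN (c : cocycles₁ (locAt q M₀))) b = 0) → f c = 0 := by
    intro c hc hθ
    obtain ⟨m, hm⟩ := (hcoc c hc).eq_cob_of_theta_eq_zero hp3 hθ
    show (H1π (locAt q M₀)).hom (c : cocycles₁ (locAt q M₀)) = 0
    rw [H1π_eq_zero_iff]
    refine ⟨m • e, ?_⟩
    funext τ
    rw [d₀₁_hom_apply]
    show M₀.ρ (primeLocalToGlobal q τ) (m • e) - m • e = (c : cocycles₁ (locAt q M₀)) τ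
    rw [hval c hc τ, ← tkCoefN_apply q M₀ gN c.2.1 τ, hm _ (hq.1 τ), map_smul, hχe _ (hq.1 τ),
      smul_smul, ← sub_smul]
    congr 1
    ring
  -- the kernel of `eM` and the cocycles with trivial invariants
  set Z₀ : Submodule k Z := LinearMap.ker eM with hZ₀
  have hZ₀mem : ∀ c : Z₀, eM (c : Z) = 0 := fun c => LinearMap.mem_ker.1 c.2
  let cf : Z₀ → (GQ → k) := fun c => tkCoefN q M₀ gN ((c : Z) : cocycles₁ (locAt q M₀))
  have hcfcoc : ∀ c : Z₀, S.Coc (cf c) := fun c => hcoc (c : Z) (hZ₀mem c)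
  have hcfpeu : ∀ c : Z₀, S.IsPeu (cf c) := fun c => (c : Z).2.2.2.2
  have hcfadd : ∀ c c' : Z₀, cf (c + c') = cf c + cf c' := fun c c' => tkCoefN_add q M₀ gN _ _
  have hcfsub : ∀ c c' : Z₀, cf (c - c') = cf c - cf c' := fun c c' => tkCoefN_sub q M₀ gN _ _
  have hcfsmul : ∀ (x : k) (c : Z₀), cf (x • c) = x • cf c := fun x c => tkCoefN_smul q M₀ gN x _
  let K₀ : Submodule k Z₀ :=
    { carrier := {c | ∀ b, S.theta (cf c) b = 0}
      add_mem' := by
        intro c c' hc hc' b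
        rw [hcfadd, (hcfcoc c).theta_add (hcfcoc c'), hc b, hc' b, add_zero]
      zero_mem' := by
        intro b
        have : cf 0 = 0 := tkCoefN_zero q M₀ gN
        rw [this, S.theta_zero]
      smul_mem' := by
        intro x c hc b
        rw [hcfsmul, S.theta_smul]
        exact hc _ }
  let f₀ : Z₀ →ₗ[k] H1 (locAt q M₀) := f ∘ₗ Z₀.subtype
  let g₀ : Z₀ →ₗ[k] Z₀ ⧸ K₀ := K₀.mkQ
  have hle : LinearMap.ker g₀ ≤ LinearMap.ker f₀ := by
    intro c hc
    rw [Submodule.ker_mkQ] at hc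
    rw [LinearMap.mem_ker]
    exact hcob (c : Z) (hZ₀mem c) hc
  -- the quotient is small
  haveI : CharP k 𝔓.p := tk_charP_k
  obtain ⟨hfin2, hcard2⟩ := tk_card_semilinear_le (k := k) (κ := 𝔓.tkKappa) 𝔓.p S.beta
    (S.beta_ne_zero hp3)
  have hmk : Function.Surjective (Submodule.Quotient.mk : Z₀ → Z₀ ⧸ K₀) :=
    Submodule.Quotient.mk_surjective K₀
  let Ψ : (Z₀ ⧸ K₀) → {x : k → 𝔓.tkKappa // (∀ a b, x (a + b) = x a + x b) ∧
      ∀ b, x (S.beta * b) = x b ^ 𝔓.p} := fun x =>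
    ⟨fun b => (S.theta (cf (Function.surjInv hmk x)) b).2,
      fun a b => by
        show (S.theta (cf (Function.surjInv hmk x)) (a + b)).2 =
          (S.theta (cf (Function.surjInv hmk x)) a).2 + (S.theta (cf (Function.surjInv hmk x)) b).2
        rw [(hcfcoc _).theta_add_right]; rfl,
      fun b => by
        show (S.theta (cf (Function.surjInv hmk x)) (S.beta * b)).2 =
          (S.theta (cf (Function.surjInv hmk x)) b).2 ^ 𝔓.p
        rw [(hcfcoc _).theta_frob]⟩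
  have hΨ : Function.Injective Ψ := by
    intro x y hxy
    have h2 : ∀ b, (S.theta (cf (Function.surjInv hmk x)) b).2 =
        (S.theta (cf (Function.surjInv hmk y)) b).2 := fun b =>
      congrFun (congrArg Subtype.val hxy) b
    have h3 : Function.surjInv hmk x - Function.surjInv hmk y ∈ K₀ := by
      intro b
      rw [hcfsub, (hcfcoc _).theta_sub (hcfcoc _)]
      refine Prod.ext ?_ ?_
      · show (S.theta (cf (Function.surjInv hmk x)) b).1 -
          (S.theta (cf (Function.surjInv hmk y)) b).1 = 0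
        rw [(hcfpeu _).theta_fst, (hcfpeu _).theta_fst, sub_zero]
      · show (S.theta (cf (Function.surjInv hmk x)) b).2 -
          (S.theta (cf (Function.surjInv hmk y)) b).2 = 0
        rw [h2 b, sub_self]
    have h4 := (Submodule.Quotient.eq K₀).2 h3
    rw [Function.surjInv_eq hmk x, Function.surjInv_eq hmk y] at h4
    exact h4
  haveI := hfin2
  haveI : Finite (Z₀ ⧸ K₀) := Finite.of_injective Ψ hΨ
  obtain ⟨hfdQ, hrkQ⟩ := tk_finrank_le_of_card_le (k := k) (V := Z₀ ⧸ K₀) 1 (by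
    calc Nat.card (Z₀ ⧸ K₀) ≤ Nat.card _ := Nat.card_le_card_of_injective Ψ hΨ
      _ ≤ Nat.card k := hcard2
      _ = Nat.card k ^ 1 := (pow_one _).symm)
  haveI := hfdQ
  have hrg : Module.finrank k (LinearMap.range g₀) ≤ 1 :=
    (Submodule.finrank_le _).trans hrkQ
  obtain ⟨hfdP, hleP, hstrict⟩ := tw_finrank_range_le (k := k) f₀ g₀ hle
  haveI := hfdP
  -- the two-step bound
  have hP : ∀ z : Z, eM z = 0 → f z ∈ LinearMap.range f₀ := by
    intro z hz
    exact ⟨⟨z, LinearMap.mem_ker.2 hz⟩, rfl⟩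
  obtain ⟨-, hrk⟩ := tw_finrank_range_le_add (k := k) f eM (LinearMap.range f₀) hP
  have hre : Module.finrank k (LinearMap.range eM) ≤ 1 := by
    have := Submodule.finrank_le (LinearMap.range eM)
    rwa [Module.finrank_self] at this
  have hrange : LinearMap.range f = tkBorelClasses S q M₀ gN gH gB := by
    show LinearMap.range ((H1π (locAt q M₀)).hom ∘ₗ Z.subtype) = _
    rw [LinearMap.range_comp, Submodule.range_subtype]
    rfl
  rw [hrange] at hrk
  by_cases hh0 : 0 < Module.finrank k (locAt q M₀).ρ.invariants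
  · omega
  · -- `h⁰ = 0`: the coboundary of `E` kills the remaining line
    have hh0' : Module.finrank k (locAt q M₀).ρ.invariants = 0 := by omega
    let El : (locAt q M₀).V := E
    let cE : cocycles₁ (locAt q M₀) :=
      ⟨(d₀₁ (locAt q M₀)).hom El, d₀₁_apply_mem_cocycles₁ El⟩
    have hcEval : ∀ τ, cE τ = M₀.ρ (primeLocalToGlobal q τ) E - E := fun τ => rfl
    have hcElev : IsLevelConstant₁ (primeLocalToGlobal q) cE := by
      obtain ⟨F, hF, hFs⟩ := hsm
      refine ⟨F, hF, fun g' s' hs' => ?_⟩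
      show cE (g' * s') = cE g'
      rw [hcEval, hcEval, map_mul, map_mul, hFs _ hs', mul_one]
    have hcEline : ∀ τ, ∃ κ : k, cE τ = κ • e := fun τ => hEe _ (hq.1 τ)
    have hcEZ : cE ∈ Z := by
      refine ⟨hcElev, fun τ => ?_, fun τ _ => ?_, ?_⟩
      · obtain ⟨κ, hκ⟩ := hcEline τ
        rw [hκ, map_smul, hgB, smul_zero]
      · obtain ⟨κ, hκ⟩ := hcEline τ
        rw [hκ, map_smul, hgH, smul_zero]
      · refine hEpeu.congr (fun ι hι => ?_)
        obtain ⟨t, rfl⟩ := hq.2 ι (𝔓.I_le_D hι)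
        rw [tkCoefN_apply q M₀ gN hcElev t, hcEval]
    have hcEker : eM ⟨cE, hcEZ⟩ = 0 := by
      obtain ⟨κ, hκ⟩ := hcEline τφ
      show gH (cE τφ) = 0
      rw [hκ, map_smul, hgH, smul_zero]
    let z : Z₀ := ⟨⟨cE, hcEZ⟩, LinearMap.mem_ker.2 hcEker⟩
    have hfz : f₀ z = 0 := by
      show (H1π (locAt q M₀)).hom cE = 0
      rw [H1π_eq_zero_iff]
      exact ⟨El, rfl⟩
    have hgz : g₀ z ≠ 0 := by
      intro h0
      have h1 : z ∈ K₀ := (Submodule.Quotient.mk_eq_zero K₀).1 h0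
      obtain ⟨m, hm⟩ := (hcfcoc z).eq_cob_of_theta_eq_zero hp3 h1
      have hinv : E - m • e ∈ (locAt q M₀).ρ.invariants := by
        rw [Representation.mem_invariants]
        intro τ
        show M₀.ρ (primeLocalToGlobal q τ) (E - m • e) = _
        have h2 := hm _ (hq.1 τ)
        have h3 : cf z (primeLocalToGlobal q τ) = gN (cE τ) := tkCoefN_apply q M₀ gN hcElev τ
        obtain ⟨κ, hκ⟩ := hcEline τ
        rw [h3, hκ, map_smul, hgN, smul_eq_mul, mul_one] at h2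
        rw [hcEval, sub_eq_iff_eq_add] at hκ
        rw [map_sub, map_smul, hχe _ (hq.1 τ), hκ, h2, smul_smul, sub_mul, one_mul, sub_smul,
          mul_comm]
        abel
      have hne : (⟨E - m • e, hinv⟩ : (locAt q M₀).ρ.invariants) ≠ 0 := by
        intro h0'
        have := congrArg Subtype.val h0'
        exact hE _ (sub_eq_zero.1 this)
      haveI : Module.Finite k (locAt q M₀).V := ‹Module.Finite k M₀.V›
      have hpos : 0 < Module.finrank k (locAt q M₀).ρ.invariants :=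
        Module.finrank_pos_iff_exists_ne_zero.2 ⟨_, hne⟩
      omega
    have h5 := hstrict ⟨z, hfz, hgz⟩
    omega

end

end Fermat.Agent.TW
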