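/-
P10 / G7 WP-D (helper8): the flat local condition at `p` for a reducible (ordinary) residual
representation: the specialisation of `Ord/BorelCount.lean` to `ad⁰ ρbar`.

For a line `k v₀` of `ρbar` (`TkLine`) and a vector `w` with `det [v₀ | w] = 1`:
* the linear forms `tkFormN`, `tkFormH`, `tkFormB` on `ad⁰ ρbar` (coordinates with respect to the
  Borel subalgebra of `k v₀`);
* the character `tkChi = x₀ / z₀` of the decomposition group on the nilpotent line;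
* `tk_exists_setupD` : a `TkSetupD` with this character;
* `tk_finrank_flatOrd_le` : the Borel classes have dimension `≤ h⁰ + 1`, provided the extension
  class of `ρbar` is peu ramifié.
-/
import Fermat.Agent.Lib.TW.Ord.BorelCount
import Fermat.Agent.Lib.TW.Ord.LineStructure
import Fermat.Agent.Lib.TW.Kum.Final

set_option autoImplicit false
set_option linter.style.haveILetI false
set_option linter.unusedSectionVars false

open Fermat.Agent.S53Lib groupCohomology ExtCitation Polynomial CategoryTheory IsLocalRing Matrix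

namespace Fermat.Agent.TW

noncomputable section

local notation "Qb" => AlgebraicClosure ℚ

variable {k : Type} [Field k]

/-! ### Linear algebra -/

/-- the trace in the basis `(v₀, w)` -/
theorem tk_trace_eq {v₀ w : Fin 2 → k} (hw : twPerp v₀ ⬝ᵥ w = 1) (C : Matrix (Fin 2) (Fin 2) k) :
    C.trace = -(twPerp w ⬝ᵥ (C *ᵥ v₀)) + twPerp v₀ ⬝ᵥ (C *ᵥ w) := by
  rw [Matrix.trace_fin_two]
  simp only [twPerp, dotProduct, Matrix.mulVec, Fin.sum_univ_two, Matrix.cons_val_zero,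
    Matrix.cons_val_one] at hw ⊢
  linear_combination (-(C 0 0) - C 1 1) * hw

/-- the diagonal matrix `v₀ ↦ v₀`, `w ↦ -w` -/
def tkDiagMat (v₀ w : Fin 2 → k) : Matrix (Fin 2) (Fin 2) k :=
  vecMulVec v₀ (-twPerp w) - vecMulVec w (twPerp v₀)

theorem tkDiagMat_mulVec_v {v₀ w : Fin 2 → k} (hw : twPerp v₀ ⬝ᵥ w = 1) :
    tkDiagMat v₀ w *ᵥ v₀ = v₀ := by
  unfold tkDiagMat
  rw [Matrix.sub_mulVec, vecMulVec_mulVec, vecMulVec_mulVec, twPerp_dot_self, neg_dotProduct,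
    tk_perp_dual_dot hw, neg_neg]
  simp

theorem tkDiagMat_mulVec_w {v₀ w : Fin 2 → k} (hw : twPerp v₀ ⬝ᵥ w = 1) :
    tkDiagMat v₀ w *ᵥ w = -w := by
  unfold tkDiagMat
  rw [Matrix.sub_mulVec, vecMulVec_mulVec, vecMulVec_mulVec, hw, neg_dotProduct, twPerp_dot_self]
  simp

theorem tkDiagMat_trace {v₀ w : Fin 2 → k} (hw : twPerp v₀ ⬝ᵥ w = 1) :
    (tkDiagMat v₀ w).trace = 0 := by
  rw [tk_trace_eq hw, tkDiagMat_mulVec_v hw, tkDiagMat_mulVec_w hw, tk_perp_dual_dot hw,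
    dotProduct_neg, hw]
  ring

variable (ρbar : ResidualGaloisRep k) (b : Module.Basis (Fin 2) k ρbar.V)

/-- the linear form `x ↦ a ⬝ (x u)` on `ad⁰ ρbar` -/
def tkAdForm (a u : Fin 2 → k) : (ad0Rep ρbar).V →ₗ[k] k where
  toFun x := a ⬝ᵥ (twAdMat b x *ᵥ u)
  map_add' x y := by rw [twAdMat_add, Matrix.add_mulVec, dotProduct_add]
  map_smul' c x := by
    rw [twAdMat_smul, Matrix.smul_mulVec, dotProduct_smul]
    rfl

theorem tkAdForm_apply (a u : Fin 2 → k) (x : (ad0Rep ρbar).V) :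
    tkAdForm ρbar b a u x = a ⬝ᵥ (twAdMat b x *ᵥ u) := rfl

/-- the coordinate on the nilpotent line -/
def tkFormN (w : Fin 2 → k) : (ad0Rep ρbar).V →ₗ[k] k := tkAdForm ρbar b (-twPerp w) w

/-- the diagonal coordinate -/
def tkFormH (v₀ w : Fin 2 → k) : (ad0Rep ρbar).V →ₗ[k] k := tkAdForm ρbar b (-twPerp w) v₀

/-- the obstruction to lying in the Borel subalgebra -/
def tkFormB (v₀ : Fin 2 → k) : (ad0Rep ρbar).V →ₗ[k] k := tkAdForm ρbar b (twPerp v₀) v₀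

variable {ρbar b}

theorem tkFormN_apply (w : Fin 2 → k) (x : (ad0Rep ρbar).V) :
    tkFormN ρbar b w x = -(twPerp w ⬝ᵥ (twAdMat b x *ᵥ w)) := by
  unfold tkFormN
  rw [tkAdForm_apply, neg_dotProduct]

theorem tkFormH_apply (v₀ w : Fin 2 → k) (x : (ad0Rep ρbar).V) :
    tkFormH ρbar b v₀ w x = -(twPerp w ⬝ᵥ (twAdMat b x *ᵥ v₀)) := by
  unfold tkFormH
  rw [tkAdForm_apply, neg_dotProduct]

theorem tkFormB_apply (v₀ : Fin 2 → k) (x : (ad0Rep ρbar).V) :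
    tkFormB ρbar b v₀ x = twPerp v₀ ⬝ᵥ (twAdMat b x *ᵥ v₀) := rfl

/-- the decomposition of `x v₀` -/
theorem tk_adMat_mulVec_v {v₀ w : Fin 2 → k} (hw : twPerp v₀ ⬝ᵥ w = 1) (x : (ad0Rep ρbar).V) :
    twAdMat b x *ᵥ v₀ = tkFormH ρbar b v₀ w x • v₀ + tkFormB ρbar b v₀ x • w := by
  rw [tkFormH_apply, tkFormB_apply]
  exact tk_decomp_of_dual hw _

theorem tkFormN_nilEl {v₀ w : Fin 2 → k} (hw : twPerp v₀ ⬝ᵥ w = 1) :
    tkFormN ρbar b w (twNilEl ρbar b v₀) = 1 := by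
  rw [tkFormN_apply, twAdMat_nilEl]
  unfold twNilMat
  rw [vecMulVec_mulVec, hw]
  simp only [MulOpposite.op_one, one_smul]
  rw [tk_perp_dual_dot hw, neg_neg]

theorem tkFormH_nilEl (v₀ w : Fin 2 → k) : tkFormH ρbar b v₀ w (twNilEl ρbar b v₀) = 0 := by
  rw [tkFormH_apply, twAdMat_nilEl, twNilMat_mulVec_self, dotProduct_zero, neg_zero]

theorem tkFormB_nilEl (v₀ : Fin 2 → k) : tkFormB ρbar b v₀ (twNilEl ρbar b v₀) = 0 := by
  rw [tkFormB_apply, twAdMat_nilEl, twNilMat_mulVec_self, dotProduct_zero]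

/-- an element of the Borel subalgebra with trivial diagonal part lies on the nilpotent line -/
theorem tk_eq_smul_nilEl {v₀ w : Fin 2 → k} (hv₀ : v₀ ≠ 0) (hw : twPerp v₀ ⬝ᵥ w = 1)
    (x : (ad0Rep ρbar).V) (hB : tkFormB ρbar b v₀ x = 0) (hH : tkFormH ρbar b v₀ w x = 0) :
    x = tkFormN ρbar b w x • twNilEl ρbar b v₀ := by
  have h1 : twAdMat b x *ᵥ v₀ = 0 := by
    rw [tk_adMat_mulVec_v hw, hB, hH, zero_smul, zero_smul, add_zero]
  obtain ⟨γ, hγ⟩ := tw_eq_smul_nilMat hv₀ (twAdMat b x) (twAdMat_trace _) h1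
  have h2 : x = γ • twNilEl ρbar b v₀ := by
    apply twAdMat_injective (b := b)
    rw [hγ, twAdMat_smul, twAdMat_nilEl]
  have h3 : tkFormN ρbar b w x = γ := by
    rw [h2, map_smul, tkFormN_nilEl hw, smul_eq_mul, mul_one]
  rw [h3]
  exact h2

/-! ### The action of the decomposition group -/

section Action

variable {𝔓 : FFPlace} {v₀ w : Fin 2 → k}

theorem tk_eigen_ne_zero {σ : GQ} {x z : k}
    (hdet : (rbarMat ρbar b σ).det = x * z) : x ≠ 0 ∧ z ≠ 0 := by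
  have h1 : (rbarMat ρbar b σ).det * (rbarMat ρbar b σ⁻¹).det = 1 := by
    rw [← Matrix.det_mul, rbarMat_mul_inv, Matrix.det_one]
  rw [hdet] at h1
  constructor
  · rintro rfl
    rw [zero_mul, zero_mul] at h1
    exact zero_ne_one h1
  · rintro rfl
    rw [mul_zero, zero_mul] at h1
    exact zero_ne_one h1

theorem tk_inv_mulVec {σ : GQ} {x : k} (hx0 : x ≠ 0)
    (hx : rbarMat ρbar b σ *ᵥ v₀ = x • v₀) : rbarMat ρbar b σ⁻¹ *ᵥ v₀ = x⁻¹ • v₀ := by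
  have h1 : rbarMat ρbar b σ⁻¹ *ᵥ (rbarMat ρbar b σ *ᵥ v₀) = v₀ := by
    rw [Matrix.mulVec_mulVec, rbarMat_inv_mul, Matrix.one_mulVec]
  rw [hx, Matrix.mulVec_smul] at h1
  calc rbarMat ρbar b σ⁻¹ *ᵥ v₀ = x⁻¹ • (x • rbarMat ρbar b σ⁻¹ *ᵥ v₀) := by
        rw [smul_smul, inv_mul_cancel₀ hx0, one_smul]
    _ = x⁻¹ • v₀ := by rw [h1]

/-- the decomposition group acts on the nilpotent line through `x / z` -/
theorem tk_rho_nilEl {σ : GQ} {x z : k} (hz0 : z ≠ 0)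
    (hx : rbarMat ρbar b σ *ᵥ v₀ = x • v₀)
    (hz : twPerp v₀ ᵥ* rbarMat ρbar b σ = z • twPerp v₀) :
    (ad0Rep ρbar).ρ σ (twNilEl ρbar b v₀) = (x * z⁻¹) • twNilEl ρbar b v₀ := by
  apply twAdMat_injective (b := b)
  rw [twAdMat_ρ, twAdMat_smul, twAdMat_nilEl]
  have h1 : rbarMat ρbar b σ * twNilMat v₀ = x • twNilMat v₀ := by
    unfold twNilMat
    rw [mul_vecMulVec, hx, smul_vecMulVec]
  have h2 : twNilMat v₀ * rbarMat ρbar b σ = z • twNilMat v₀ := by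
    unfold twNilMat
    rw [vecMulVec_mul, hz, vecMulVec_smul]
  have h3 : twNilMat v₀ * rbarMat ρbar b σ⁻¹ = z⁻¹ • twNilMat v₀ := by
    have h4 : twNilMat v₀ = z⁻¹ • (twNilMat v₀ * rbarMat ρbar b σ) := by
      rw [h2, smul_smul, inv_mul_cancel₀ hz0, one_smul]
    calc twNilMat v₀ * rbarMat ρbar b σ⁻¹
        = (z⁻¹ • (twNilMat v₀ * rbarMat ρbar b σ)) * rbarMat ρbar b σ⁻¹ := by rw [← h4]
      _ = z⁻¹ • twNilMat v₀ := by
        rw [Matrix.smul_mul, mul_assoc, rbarMat_mul_inv, mul_one]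
  rw [mul_assoc, h3, Matrix.mul_smul, h1, smul_smul, mul_comm]

variable (ρbar b) in
/-- the character of the decomposition group on the nilpotent line -/
def tkChi (v₀ w : Fin 2 → k) (σ : GQ) : k :=
  tkFormN ρbar b w ((ad0Rep ρbar).ρ σ (twNilEl ρbar b v₀))

theorem tkChi_eq (hw : twPerp v₀ ⬝ᵥ w = 1) {σ : GQ} {x z : k} (hz0 : z ≠ 0)
    (hx : rbarMat ρbar b σ *ᵥ v₀ = x • v₀)
    (hz : twPerp v₀ ᵥ* rbarMat ρbar b σ = z • twPerp v₀) :
    tkChi ρbar b v₀ w σ = x * z⁻¹ := by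
  unfold tkChi
  rw [tk_rho_nilEl hz0 hx hz, map_smul, tkFormN_nilEl hw, smul_eq_mul, mul_one]

theorem tkChi_spec (hv : TkLine 𝔓 (rbarMat ρbar b) v₀) (hw : twPerp v₀ ⬝ᵥ w = 1) {σ : GQ}
    (hσ : σ ∈ 𝔓.D) :
    (ad0Rep ρbar).ρ σ (twNilEl ρbar b v₀) = tkChi ρbar b v₀ w σ • twNilEl ρbar b v₀ := by
  obtain ⟨x, z, hx, hz, hdet⟩ := hv.exists_eigen hσ
  have hz0 := (tk_eigen_ne_zero hdet).2
  rw [tkChi_eq hw hz0 hx hz]
  exact tk_rho_nilEl hz0 hx hz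

theorem tkChi_one (hw : twPerp v₀ ⬝ᵥ w = 1) : tkChi ρbar b v₀ w 1 = 1 := by
  unfold tkChi
  rw [map_one, Module.End.one_apply, tkFormN_nilEl hw]

theorem tkChi_mul (hv : TkLine 𝔓 (rbarMat ρbar b) v₀) (hw : twPerp v₀ ⬝ᵥ w = 1) {σ τ : GQ}
    (hσ : σ ∈ 𝔓.D) (hτ : τ ∈ 𝔓.D) :
    tkChi ρbar b v₀ w (σ * τ) = tkChi ρbar b v₀ w σ * tkChi ρbar b v₀ w τ := by
  have h1 : (ad0Rep ρbar).ρ (σ * τ) (twNilEl ρbar b v₀) =
      (tkChi ρbar b v₀ w σ * tkChi ρbar b v₀ w τ) • twNilEl ρbar b v₀ := by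
    rw [map_mul, Module.End.mul_apply, tkChi_spec hv hw hτ, map_smul, tkChi_spec hv hw hσ,
      smul_smul, mul_comm]
  unfold tkChi at h1 ⊢
  rw [h1, map_smul, tkFormN_nilEl hw, smul_eq_mul, mul_one]

/-- on the inertia group the character is the determinant -/
theorem tkChi_inertia (hv : TkLine 𝔓 (rbarMat ρbar b) v₀) (hw : twPerp v₀ ⬝ᵥ w = 1) {σ : GQ}
    (hσ : σ ∈ 𝔓.I) : tkChi ρbar b v₀ w σ = (rbarMat ρbar b σ).det := by
  obtain ⟨x, z, hx, hz, hdet⟩ := hv.exists_eigen (𝔓.I_le_D hσ)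
  have hz1 : z = 1 := by
    have h1 := hv.inertia σ hσ
    rw [hz] at h1
    have h2 : z • twPerp v₀ = (1 : k) • twPerp v₀ := by rw [h1, one_smul]
    exact smul_left_injective k (twPerp_ne_zero hv.ne_zero) h2
  rw [tkChi_eq hw (by rw [hz1]; exact one_ne_zero) hx hz, hdet, hz1, inv_one]

end Action

/-! ### More on the action -/

section Action2

variable {𝔓 : FFPlace} {v₀ w : Fin 2 → k}

/-- the image of `w` -/
theorem tk_mulVec_w (hw : twPerp v₀ ⬝ᵥ w = 1) {σ : GQ} {z : k}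
    (hz : twPerp v₀ ᵥ* rbarMat ρbar b σ = z • twPerp v₀) :
    rbarMat ρbar b σ *ᵥ w =
      z • w + (-(twPerp w ⬝ᵥ (rbarMat ρbar b σ *ᵥ w))) • v₀ := by
  have h1 := tk_decomp_of_dual hw (rbarMat ρbar b σ *ᵥ w)
  have h2 : twPerp v₀ ⬝ᵥ (rbarMat ρbar b σ *ᵥ w) = z := by
    rw [Matrix.dotProduct_mulVec, hz, smul_dotProduct, hw, smul_eq_mul, mul_one]
  rw [h2] at h1
  rw [add_comm]
  exact h1

theorem tk_inv_mulVec_w {σ : GQ} {x z c : k} (hx0 : x ≠ 0) (hz0 : z ≠ 0)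
    (hx : rbarMat ρbar b σ *ᵥ v₀ = x • v₀) (hAw : rbarMat ρbar b σ *ᵥ w = z • w + c • v₀) :
    rbarMat ρbar b σ⁻¹ *ᵥ w = z⁻¹ • w - (c * x⁻¹ * z⁻¹) • v₀ := by
  have h1 : rbarMat ρbar b σ⁻¹ *ᵥ (rbarMat ρbar b σ *ᵥ w) = w := by
    rw [Matrix.mulVec_mulVec, rbarMat_inv_mul, Matrix.one_mulVec]
  rw [hAw, Matrix.mulVec_add, Matrix.mulVec_smul, Matrix.mulVec_smul, tk_inv_mulVec hx0 hx] at h1
  have h2 : z • rbarMat ρbar b σ⁻¹ *ᵥ w = w - c • x⁻¹ • v₀ := eq_sub_of_add_eq h1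
  calc rbarMat ρbar b σ⁻¹ *ᵥ w = z⁻¹ • (z • rbarMat ρbar b σ⁻¹ *ᵥ w) := by
        rw [smul_smul, inv_mul_cancel₀ hz0, one_smul]
    _ = z⁻¹ • w - (c * x⁻¹ * z⁻¹) • v₀ := by
        rw [h2, smul_sub, smul_smul, smul_smul]
        congr 2
        ring

variable (ρbar b) in
/-- the diagonal element `v₀ ↦ v₀`, `w ↦ -w` of `ad⁰ ρbar` -/
def tkDiagEl (v₀ w : Fin 2 → k) (hw : twPerp v₀ ⬝ᵥ w = 1) : (ad0Rep ρbar).V :=
  twAdMk ρbar b (tkDiagMat v₀ w) (tkDiagMat_trace hw)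

theorem tkDiagEl_ne_smul (hv₀ : v₀ ≠ 0) (hw : twPerp v₀ ⬝ᵥ w = 1) (a : k) :
    tkDiagEl ρbar b v₀ w hw ≠ a • twNilEl ρbar b v₀ := by
  intro h0
  have h1 := congrArg (twAdMat b) h0
  unfold tkDiagEl at h1
  rw [twAdMat_twAdMk, twAdMat_smul, twAdMat_nilEl] at h1
  have h3 := congrArg (fun C => C *ᵥ v₀) h1
  simp only [tkDiagMat_mulVec_v hw, Matrix.smul_mulVec, twNilMat_mulVec_self, smul_zero] at h3
  exact hv₀ h3

/-- the matrix of `σ E - E` for the diagonal element `E` -/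
theorem tk_adMat_diag_sub (hw : twPerp v₀ ⬝ᵥ w = 1) {σ : GQ} {x z : k} (hx0 : x ≠ 0)
    (hz0 : z ≠ 0) (hx : rbarMat ρbar b σ *ᵥ v₀ = x • v₀)
    (hz : twPerp v₀ ᵥ* rbarMat ρbar b σ = z • twPerp v₀) :
    twAdMat b ((ad0Rep ρbar).ρ σ (tkDiagEl ρbar b v₀ w hw) - tkDiagEl ρbar b v₀ w hw) *ᵥ v₀ = 0 ∧
    twAdMat b ((ad0Rep ρbar).ρ σ (tkDiagEl ρbar b v₀ w hw) - tkDiagEl ρbar b v₀ w hw) *ᵥ w =
      (-2 * (-(twPerp w ⬝ᵥ (rbarMat ρbar b σ *ᵥ w))) * z⁻¹) • v₀ := by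
  have hAw := tk_mulVec_w (ρbar := ρbar) (b := b) hw hz
  set c : k := -(twPerp w ⬝ᵥ (rbarMat ρbar b σ *ᵥ w)) with hc
  have hinv := tk_inv_mulVec hx0 hx
  have hinvw := tk_inv_mulVec_w hx0 hz0 hx hAw
  have hmat : twAdMat b ((ad0Rep ρbar).ρ σ (tkDiagEl ρbar b v₀ w hw) - tkDiagEl ρbar b v₀ w hw) =
      rbarMat ρbar b σ * tkDiagMat v₀ w * rbarMat ρbar b σ⁻¹ - tkDiagMat v₀ w := by
    unfold tkDiagEl
    rw [twAdMat_sub, twAdMat_ρ, twAdMat_twAdMk]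
  rw [hmat]
  constructor
  · rw [Matrix.sub_mulVec, ← Matrix.mulVec_mulVec, ← Matrix.mulVec_mulVec, hinv,
      Matrix.mulVec_smul, tkDiagMat_mulVec_v hw, Matrix.mulVec_smul, hx, smul_smul,
      inv_mul_cancel₀ hx0, one_smul, sub_self]
  · rw [Matrix.sub_mulVec, ← Matrix.mulVec_mulVec, ← Matrix.mulVec_mulVec, hinvw,
      Matrix.mulVec_sub, Matrix.mulVec_smul, Matrix.mulVec_smul, tkDiagMat_mulVec_v hw,
      tkDiagMat_mulVec_w hw, Matrix.mulVec_sub, Matrix.mulVec_smul, Matrix.mulVec_smul,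
      Matrix.mulVec_neg, hAw, hx]
    match_scalars <;> field_simp <;> ring

theorem tk_rho_diagEl_sub (hv : TkLine 𝔓 (rbarMat ρbar b) v₀) (hw : twPerp v₀ ⬝ᵥ w = 1) {σ : GQ}
    (hσ : σ ∈ 𝔓.D) : ∃ κ : k, (ad0Rep ρbar).ρ σ (tkDiagEl ρbar b v₀ w hw) -
      tkDiagEl ρbar b v₀ w hw = κ • twNilEl ρbar b v₀ := by
  obtain ⟨x, z, hx, hz, hdet⟩ := hv.exists_eigen hσ
  obtain ⟨hx0, hz0⟩ := tk_eigen_ne_zero hdet
  obtain ⟨h1, -⟩ := tk_adMat_diag_sub (ρbar := ρbar) (b := b) hw hx0 hz0 hx hz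
  obtain ⟨γ, hγ⟩ := tw_eq_smul_nilMat hv.ne_zero _ (twAdMat_trace _) h1
  refine ⟨γ, twAdMat_injective (b := b) ?_⟩
  rw [hγ, twAdMat_smul, twAdMat_nilEl]

theorem tkFormN_rho_diagEl_sub (hv : TkLine 𝔓 (rbarMat ρbar b) v₀) (hw : twPerp v₀ ⬝ᵥ w = 1)
    {σ : GQ} (hσ : σ ∈ 𝔓.I) :
    tkFormN ρbar b w ((ad0Rep ρbar).ρ σ (tkDiagEl ρbar b v₀ w hw) - tkDiagEl ρbar b v₀ w hw) =
      -2 * (-(twPerp w ⬝ᵥ (rbarMat ρbar b σ *ᵥ w))) := by
  obtain ⟨x, z, hx, hz, hdet⟩ := hv.exists_eigen (𝔓.I_le_D hσ)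
  obtain ⟨hx0, hz0⟩ := tk_eigen_ne_zero hdet
  have hz1 : z = 1 := by
    have h1 := hv.inertia σ hσ
    rw [hz] at h1
    have h2 : z • twPerp v₀ = (1 : k) • twPerp v₀ := by rw [h1, one_smul]
    exact smul_left_injective k (twPerp_ne_zero hv.ne_zero) h2
  obtain ⟨-, h2⟩ := tk_adMat_diag_sub (ρbar := ρbar) (b := b) hw hx0 hz0 hx hz
  rw [tkFormN_apply, h2, dotProduct_smul, tk_perp_dual_dot hw, hz1, inv_one, smul_eq_mul]
  ring

end Action2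

/-! ### The setup and the count -/

section Setup

variable (p : ℕ) [Fact p.Prime] [Finite k] [Algebra (ZMod p) k] {v₀ w : Fin 2 → k}

/-- a `TkSetupD` with the character `tkChi` -/
theorem tk_exists_setupD (hp3 : 3 ≤ p)
    (hdetbar : (GaloisRepAdic.ofResidualGaloisRep ρbar).DetIsCyclotomic p)
    (hv : TkLine (ffPlaceAt p) (rbarMat ρbar b) v₀) (hw : twPerp v₀ ⬝ᵥ w = 1) :
    ∃ S : TkSetupD (ffPlaceAt p) k, S.χ = tkChi ρbar b v₀ w ∧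
      (primeLocalPlace (pPrime p)).IsFrobeniusAt S.φ p ∧
      ∀ σ, S.ω σ = ((cycloChar p σ : (ZMod p)ˣ) : ZMod p) := by
  obtain ⟨S₀, -, hφ, hω⟩ := tk_exists_setup p hp3 (cycloK p k) (fun _ _ => rfl)
  refine ⟨{ ζ := S₀.ζ
            hζ := S₀.hζ
            ω := S₀.ω
            hω := S₀.hω
            χ := tkChi ρbar b v₀ w
            hχ1 := tkChi_one hw
            hχmul := fun σ hσ τ hτ => tkChi_mul hv hw hσ hτ
            hχ := ?_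
            lam := S₀.lam
            hlam := S₀.hlam
            φ := S₀.φ
            hφD := S₀.hφD
            hφ := S₀.hφ
            ι₀ := S₀.ι₀
            hι₀ := S₀.hι₀
            hι₀ω := S₀.hι₀ω }, rfl, hφ, hω⟩
  intro σ hσ
  rw [tkChi_inertia hv hw hσ, tw_det_rbarMat_eq hdetbar, hω σ]
  rfl

/-- **the dimension of the flat ordinary condition** is `≤ h⁰ + 1`, if the extension class of
`ρbar` is peu ramifié -/
theorem tk_finrank_flatOrd_le (hp3 : 3 ≤ p) (S : TkSetupD (ffPlaceAt p) k)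
    (hSχ : S.χ = tkChi ρbar b v₀ w)
    (hSφ : (primeLocalPlace (pPrime p)).IsFrobeniusAt S.φ p)
    (hv : TkLine (ffPlaceAt p) (rbarMat ρbar b) v₀) (hw : twPerp v₀ ⬝ᵥ w = 1)
    (hpeu : S.IsPeu (fun σ => -(twPerp w ⬝ᵥ (rbarMat ρbar b σ *ᵥ w)))) :
    Module.finrank k (tkBorelClasses S (pPrime p) (ad0Rep ρbar) (tkFormN ρbar b w)
      (tkFormH ρbar b v₀ w) (tkFormB ρbar b v₀)) ≤ h0At ρbar (pPrime p) + 1 := by
  have hp3' : 3 ≤ (ffPlaceAt p).p := hp3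
  refine tk_finrank_borelClasses_le hp3' (tk_onto p) (tw_localSurj (pPrime p)) hSφ
    (twNilEl ρbar b v₀) ?_ (tkFormN_nilEl hw) (tkFormH_nilEl v₀ w) (tkFormB_nilEl v₀) ?_ ?_
    tw_ad0Rep_smooth (tkDiagEl ρbar b v₀ w hw) (tkDiagEl_ne_smul hv.ne_zero hw)
    (fun σ hσ => tk_rho_diagEl_sub hv hw hσ) ?_
  · intro σ hσ
    rw [hSχ]
    exact tkChi_spec hv hw hσ
  · intro x hB hH
    exact tk_eq_smul_nilEl hv.ne_zero hw x hB hH
  · intro σ hσ x hB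
    obtain ⟨x₀, z₀, hx, hz, hdet⟩ := hv.exists_eigen hσ
    obtain ⟨hx0, hz0⟩ := tk_eigen_ne_zero hdet
    have h1 : twAdMat b x *ᵥ v₀ = tkFormH ρbar b v₀ w x • v₀ := by
      rw [tk_adMat_mulVec_v hw, hB, zero_smul, add_zero]
    rw [tkFormH_apply, tkFormH_apply, twAdMat_ρ, ← Matrix.mulVec_mulVec, ← Matrix.mulVec_mulVec,
      tk_inv_mulVec hx0 hx, Matrix.mulVec_smul, h1, Matrix.mulVec_smul, Matrix.mulVec_smul, hx,
      smul_smul, smul_smul]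
    have h2 : x₀⁻¹ * tkFormH ρbar b v₀ w x * x₀ = tkFormH ρbar b v₀ w x := by
      field_simp
    rw [h2]
  · refine (hpeu.smul (-2)).congr (fun ι hι => ?_)
    rw [tkFormN_rho_diagEl_sub hv hw hι]
    rfl

end Setup

end

end Fermat.Agent.TW
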